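import Fermat.Agent.Places.Basic

/-!
# `ℚ(ζ₃)` and `ℚ(ζ₅)` have no unramified extension Galois over `ℚ`

An open normal subgroup of `Gal(ℚ̄/ℚ)` inside the stabiliser `C` of `ζ_p` (`p = 3, 5`) which
contains `I ∩ C` for every inertia group `I` is `C` itself: the discriminant of the fixed field
would otherwise be below Minkowski's bound.
-/

set_option autoImplicit false
set_option linter.style.haveILetI false

noncomputable section

open NumberField IntermediateField
open scoped nonZeroDivisors Pointwise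

namespace FLTAgent.ModLift

local notation "QQb" => AlgebraicClosure ℚ
local notation "GG" => (AlgebraicClosure ℚ ≃ₐ[ℚ] AlgebraicClosure ℚ)
local notation "ZB" => integralClosure ℤ (AlgebraicClosure ℚ)

open FLTAgent.Frobenius (centre mem_centre_iff)

/-- The second order Bernoulli inequality. -/
theorem one_add_mul_add_le_pow (n : ℕ) {x : ℝ} (hx : 0 ≤ x) :
    1 + n * x + (n : ℝ) * ((n : ℝ) - 1) / 2 * x ^ 2 ≤ (1 + x) ^ n := by
  induction n with
  | zero => simp
  | succ n ih =>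
    have h1 := mul_le_mul_of_nonneg_right ih (by linarith : (0 : ℝ) ≤ 1 + x)
    have h2 : (0 : ℝ) ≤ (n : ℝ) * ((n : ℝ) - 1) := by
      rcases Nat.eq_zero_or_pos n with h | h
      · simp [h]
      · have : (1 : ℝ) ≤ n := by exact_mod_cast h
        exact mul_nonneg (Nat.cast_nonneg n) (by linarith)
    rw [pow_succ]
    push_cast
    ring_nf
    ring_nf at h1
    nlinarith [mul_nonneg h2 (pow_nonneg hx 3)]

/-- Minkowski's bound from degree eight on. -/
theorem seven_half_pow_le (n : ℕ) (hn : 8 ≤ n) :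
    ((7 : ℝ) / 2) ^ n ≤ (n : ℝ) ^ (2 * n) / ((4 / Real.pi) ^ n * (n.factorial : ℝ) ^ 2) := by
  induction n, hn using Nat.le_induction with
  | base =>
    have hpi : (314 / 100 : ℝ) ≤ Real.pi := by
      have := Real.pi_gt_d2
      norm_num at this ⊢
      linarith
    rw [le_div_iff₀ (by positivity), div_pow 4 Real.pi,
      show Nat.factorial 8 = 40320 by decide]
    calc ((7 : ℝ) / 2) ^ 8 * (4 ^ 8 / Real.pi ^ 8 * ((40320 : ℕ) : ℝ) ^ 2)
        ≤ ((7 : ℝ) / 2) ^ 8 * (4 ^ 8 / (314 / 100) ^ 8 * ((40320 : ℕ) : ℝ) ^ 2) := by gcongr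
      _ ≤ ((8 : ℕ) : ℝ) ^ (2 * 8) := by norm_num
  | succ m hm ih =>
    have hm0 : (0 : ℝ) < m := by exact_mod_cast (by omega : 0 < m)
    have hm8 : (8 : ℝ) ≤ m := by exact_mod_cast hm
    have hb : (12 / 5 : ℝ) ≤ (1 + 1 / (m : ℝ)) ^ m := by
      refine le_trans ?_ (one_add_mul_add_le_pow m (by positivity))
      field_simp
      nlinarith
    have hstep : (7 / 2 : ℝ) ≤ (1 + 1 / (m : ℝ)) ^ (2 * m) / (4 / Real.pi) := by
      rw [le_div_iff₀ (by positivity)]
      have hpi : (3 : ℝ) < Real.pi := Real.pi_gt_three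
      calc (7 / 2 : ℝ) * (4 / Real.pi) ≤ (7 / 2) * (4 / 3) := by gcongr
        _ ≤ (12 / 5) ^ 2 := by norm_num
        _ ≤ ((1 + 1 / (m : ℝ)) ^ m) ^ 2 := by gcongr
        _ = _ := by rw [← pow_mul, mul_comm m 2]
    calc ((7 : ℝ) / 2) ^ (m + 1) = (7 / 2) ^ m * (7 / 2) := pow_succ _ _
      _ ≤ (m : ℝ) ^ (2 * m) / ((4 / Real.pi) ^ m * (m.factorial : ℝ) ^ 2) *
          ((1 + 1 / (m : ℝ)) ^ (2 * m) / (4 / Real.pi)) :=
        mul_le_mul ih hstep (by norm_num) (by positivity)
      _ = _ := by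
        rw [Nat.factorial_succ, pow_succ (4 / Real.pi) m]
        push_cast
        rw [show (m : ℝ) + 1 = m * (1 + 1 / m) by field_simp]
        rw [show 2 * (m + 1) = 2 * m + 2 by ring, mul_pow, mul_pow, mul_pow, pow_add, pow_add]
        field_simp

/-- The numerical contradiction. -/
theorem discr_bound_absurd {p m : ℕ} (hp : p = 3 ∨ p = 5) (hm : 2 ≤ m) (K : Type*) [Field K]
    [NumberField K] (hn : Module.finrank ℚ K = (p - 1) * m)
    (hd : |discr K| = ((p : ℤ) ^ (p - 2)) ^ m) : False := by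
  have hd' : ((|discr K| : ℤ) : ℝ) = ((p : ℝ) ^ (p - 2)) ^ m := by rw [hd]; push_cast; rfl
  rcases hp with rfl | rfl
  · have h1 : (4 / 9 : ℝ) * (3 * Real.pi / 4) ^ Module.finrank ℚ K ≤ ((|discr K| : ℤ) : ℝ) := by
      exact_mod_cast abs_discr_ge (K := K) (by rw [hn]; omega)
    rw [hd', hn] at h1
    norm_num at h1
    suffices ∀ k : ℕ, 2 ≤ k → (3 : ℝ) ^ k < 4 / 9 * (3 * Real.pi / 4) ^ (2 * k) by
      exact absurd h1 (not_le.2 (this m hm))
    intro k hk
    induction k, hk using Nat.le_induction with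
    | base => nlinarith [Real.pi_gt_three, pow_lt_pow_left₀ Real.pi_gt_three (by norm_num) (by norm_num : 4 ≠ 0)]
    | succ k _ ih =>
      rw [show 2 * (k + 1) = 2 * k + 2 by ring, pow_succ, pow_add, ← mul_assoc]
      exact mul_lt_mul ih (by nlinarith [Real.pi_gt_three]) (by norm_num) (by positivity)
  · have h1 := abs_discr_ge' K
    rw [hd', hn] at h1
    have h2 := seven_half_pow_le ((5 - 1) * m) (by omega)
    have h3 : (4 / Real.pi) ^ (2 * InfinitePlace.nrComplexPlaces K) ≤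
        (4 / Real.pi) ^ ((5 - 1) * m) := by
      refine pow_le_pow_right₀ ((one_le_div Real.pi_pos).2 Real.pi_le_four) ?_
      rw [← hn, ← InfinitePlace.card_add_two_mul_card_eq_rank]
      exact Nat.le_add_left _ _
    have h4 : ((7 : ℝ) / 2) ^ ((5 - 1) * m) ≤ (((5 : ℕ) : ℝ) ^ (5 - 2)) ^ m := by
      refine h2.trans (le_trans ?_ h1)
      gcongr
    rw [pow_mul] at h4
    exact absurd h4 (not_le.2 (pow_lt_pow_left₀ (by norm_num) (by positivity) (by omega)))

/-- The stabiliser of the `p`-th roots of unity. -/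
def cycloStab (p : ℕ) : Subgroup GG where
  carrier := {σ | ∀ μ : QQb, μ ^ p = 1 → σ μ = μ}
  one_mem' := fun μ _ => rfl
  mul_mem' := fun {a b} ha hb μ hμ => by rw [AlgEquiv.mul_apply, hb μ hμ, ha μ hμ]
  inv_mem' := fun {a} ha μ hμ => by
    conv_lhs => rw [← ha μ hμ]
    exact a.symm_apply_apply μ

theorem mem_cycloStab_iff {p : ℕ} [NeZero p] {ζ : QQb} (hζ : IsPrimitiveRoot ζ p) {σ : GG} :
    σ ∈ cycloStab p ↔ σ ζ = ζ :=
  ⟨fun h => h ζ hζ.pow_eq_one, fun h μ hμ => by
    obtain ⟨i, -, rfl⟩ := hζ.eq_pow_of_pow_eq_one hμ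
    rw [map_pow, h]⟩

/-- `ℚ(ζ₃)` and `ℚ(ζ₅)` have no nontrivial everywhere unramified extension Galois over `ℚ`. -/
theorem cycloStab_le_of_forall_inertia {p : ℕ} (hp : p = 3 ∨ p = 5) (H : Subgroup GG)
    [hn : H.Normal] (hH : IsOpen (H : Set GG)) (hHC : H ≤ cycloStab p)
    (h : ∀ ℓ : ℕ, ℓ.Prime → ∀ V : ValuationSubring QQb, V.LiesOverPrime ℓ →
      ∀ σ ∈ V.inertiaSubgroupIn ℚ, σ ∈ cycloStab p → σ ∈ H) : cycloStab p ≤ H := by
  haveI hpf : Fact p.Prime := ⟨by rcases hp with rfl | rfl <;> decide⟩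
  haveI : Algebra.IsAlgebraic ℚ QQb := AlgebraicClosure.isAlgebraic ℚ
  haveI : IsAlgClosure ℚ QQb := ⟨inferInstance, inferInstance⟩
  haveI : Normal ℚ QQb := IsAlgClosure.normal ℚ _
  haveI : IsGalois ℚ QQb := ⟨⟩
  have hclosed : IsClosed (H : Set GG) := Subgroup.isClosed_of_isOpen _ hH
  obtain ⟨ζ, hζ⟩ := HasEnoughRootsOfUnity.exists_primitiveRoot QQb p
  set L := IntermediateField.fixedField H with hLdef
  have hfix : L.fixingSubgroup = H := InfiniteGalois.fixingSubgroup_fixedField ⟨H, hclosed⟩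
  haveI hfin : FiniteDimensional ℚ L := (InfiniteGalois.isOpen_iff_finite L).mp (by
    rw [hfix]; exact hH)
  haveI hgal : IsGalois ℚ L := (InfiniteGalois.normal_iff_isGalois L).mp (by rw [hfix]; exact hn)
  haveI : NumberField L := { to_charZero := inferInstance, to_finiteDimensional := hfin }
  have hζL : ζ ∈ L := fun k => (mem_cycloStab_iff hζ).1 (hHC k.2)
  set z : L := ⟨ζ, hζL⟩
  have hz : IsPrimitiveRoot z p := IsPrimitiveRoot.coe_submonoidClass_iff.mp hζ
  set F : IntermediateField ℚ L := ℚ⟮z⟯ with hFdef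
  haveI hcyc : IsCyclotomicExtension {p} ℚ F := hz.intermediateField_adjoin_isCyclotomicExtension ℚ
  haveI : IsGalois F L := IsGalois.tower_top_of_isGalois ℚ F L
  -- the degree
  have hrankF : Module.finrank ℚ F = p - 1 := by
    rw [IsCyclotomicExtension.Rat.finrank p F, Nat.totient_prime hpf.out]
  have hmul : (p - 1) * Module.finrank F L = Module.finrank ℚ L := by
    rw [← hrankF]; exact Module.finrank_mul_finrank ℚ F L
  by_contra hne
  have hm : 2 ≤ Module.finrank F L := by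
    have h0 : 0 < Module.finrank F L := Module.finrank_pos
    by_contra hlt
    have h1 : Module.finrank F L = 1 := by omega
    refine hne fun σ hσ => ?_
    rw [← hfix, IntermediateField.mem_fixingSubgroup_iff]
    intro x hx
    have htop : F = ⊤ := IntermediateField.eq_of_le_of_finrank_eq le_top (by
      rw [IntermediateField.finrank_top', ← hmul, h1, mul_one, hrankF])
    have hxF : (⟨x, hx⟩ : L) ∈ F := htop ▸ IntermediateField.mem_top
    have hmap : ∀ y ∈ F, σ ((y : L) : QQb) = (y : QQb) := by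
      intro y hy
      induction hy using IntermediateField.adjoin_induction with
      | mem y hy =>
        rw [Set.mem_singleton_iff] at hy
        subst hy
        exact hσ ζ hζ.pow_eq_one
      | algebraMap q => exact σ.commutes q
      | add a b _ _ ha hb => push_cast; rw [map_add, ha, hb]
      | mul a b _ _ ha hb => push_cast; rw [map_mul, ha, hb]
      | inv a _ ha => push_cast; rw [map_inv₀, ha]
    exact hmap _ hxF
  -- the relative different is trivial
  letI : MulSemiringAction Gal(L/F) (𝓞 L) := IsIntegralClosure.MulSemiringAction (𝓞 F) F L _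
  haveI := IsGaloisGroup.of_isFractionRing Gal(L/F) (𝓞 F) (𝓞 L) F L
  have hunr : ∀ (P : Ideal (𝓞 L)) [P.IsPrime], P ≠ ⊥ → Algebra.IsUnramifiedAt (𝓞 F) P := by
    intro P hP hP0
    haveI : P.IsMaximal := Ideal.IsPrime.isMaximal hP hP0
    haveI : Finite (𝓞 F ⧸ P.under (𝓞 F)) :=
      Ideal.finiteQuotientOfFreeOfNeBot _ (mt Ideal.eq_bot_of_comap_eq_bot hP0)
    rw [← Ideal.ramificationIdx_eq_one_iff,
      ← Ideal.ramificationIdxIn_eq_ramificationIdx (P.under (𝓞 F)) P Gal(L/F),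
      ← Ideal.card_inertia_eq_ramificationIdxIn (G := Gal(L/F)) (P.under (𝓞 F)) P,
      Nat.card_eq_one_iff_unique]
    refine ⟨⟨fun a b => ?_⟩, ⟨1⟩⟩
    suffices ∀ τ : P.inertia Gal(L/F), (τ : Gal(L/F)) = 1 from
      Subtype.ext ((this a).trans (this b).symm)
    rintro ⟨τ, hτ⟩
    -- a place with centre over `P`
    obtain ⟨ℓ, hℓ, hℓP⟩ : ∃ ℓ : ℕ, ℓ.Prime ∧ (ℓ : 𝓞 L) ∈ P := by
      obtain ⟨q, hq : _ = Ideal.span _⟩ := IsPrincipalIdealRing.principal (P.under ℤ)
      have hq0 : q ≠ 0 := fun h0 => Ideal.IsMaximal.ne_bot_of_isIntegral_int P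
        (Ideal.eq_bot_of_comap_eq_bot (hq.trans (by simp [h0])))
      have hpr : Prime q := by rw [← Ideal.span_singleton_prime hq0, ← hq]; infer_instance
      refine ⟨q.natAbs, Int.prime_iff_natAbs_prime.mp hpr, ?_⟩
      have hqP : (algebraMap ℤ (𝓞 L)) q ∈ P := by
        rw [← Ideal.mem_comap, ← Ideal.under_def, hq]; exact Ideal.mem_span_singleton_self q
      rcases Int.natAbs_eq q with he | he
      · rw [he] at hqP; simpa using hqP
      · rw [he] at hqP; simpa using hqP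
    obtain ⟨V₀, hV₀⟩ := FLTAgent.Frobenius.exists_liesOverPrime ℓ hℓ
    let ι : 𝓞 L →+* ZB :=
      ((algebraMap L QQb).comp (algebraMap (𝓞 L) L)).codRestrict
        (ZB).toSubring fun c ↦ c.2.algebraMap
    have hιinj : Function.Injective ι := by
      intro a b hab
      refine RingOfIntegers.ext ((algebraMap L QQb).injective ?_)
      exact congrArg (fun y : ZB => (y : QQb)) hab
    obtain ⟨Q, hQmax, hQ⟩ : ∃ Q : Ideal ZB, Q.IsPrime ∧ Q.comap ι = P := by
      letI : Algebra (𝓞 L) ZB := ι.toAlgebra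
      haveI : Algebra.IsIntegral (𝓞 L) ZB := ⟨fun b => by
        haveI : IsScalarTower ℤ (𝓞 L) ZB := IsScalarTower.of_algebraMap_eq' (RingHom.ext_int _ _)
        exact IsIntegral.tower_top (Algebra.IsIntegral.isIntegral (R := ℤ) b)⟩
      obtain ⟨Q, -, hQ1, hQ2⟩ := Ideal.exists_ideal_over_prime_of_isIntegral P (⊥ : Ideal ZB)
        (le_of_eq_of_le (Ideal.comap_bot_of_injective _ hιinj) bot_le)
      exact ⟨Q, hQ1, hQ2⟩
    haveI := hQmax
    obtain ⟨g₀, hg₀⟩ := Places.exists_centre_smul_eq V₀ hℓ hV₀ Q (by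
      rw [← hQ, Ideal.mem_comap] at hℓP
      simpa using hℓP)
    set V := g₀ • V₀
    have hV : V.LiesOverPrime ℓ := Places.liesOverPrime_smul V₀ g₀ hV₀
    -- lift `τ`
    let τ' : L ≃ₐ[ℚ] L := τ.restrictScalars ℚ
    obtain ⟨g, hg⟩ := AlgEquiv.restrictNormalHom_surjective QQb (K₁ := L) τ'
    have hgx : ∀ x : L, g (x : QQb) = ((τ x : L) : QQb) := fun x => by
      refine (AlgEquiv.restrictNormalHom_apply L g x).symm.trans ?_
      exact congrArg Subtype.val (DFunLike.congr_fun hg x)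
    have hgC : g ∈ cycloStab p := (mem_cycloStab_iff hζ).2 (by
      have hzF : z ∈ F := IntermediateField.mem_adjoin_simple_self ℚ z
      have := τ.commutes ⟨z, hzF⟩
      have h2 := hgx z
      rw [show τ z = z from this] at h2
      exact h2)
    have hcong : ∀ b : FixedPoints.subalgebra ℤ ZB H, g • (b : ZB) - b ∈ centre V := by
      intro b
      have hmem : ((b : ZB) : QQb) ∈ L := fun k ↦ congrArg Subtype.val (b.2 k)
      have hint : IsIntegral ℤ (⟨_, hmem⟩ : L) :=
        (isIntegral_algebraMap_iff (algebraMap L QQb).injective).mp (b : ZB).2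
      let c : 𝓞 L := ⟨⟨_, hmem⟩, hint⟩
      have hc : τ • c - c ∈ P := hτ c
      rw [← hQ, Ideal.mem_comap, map_sub] at hc
      rw [hg₀]
      have e2 : ι (τ • c) = g • (b : ZB) := Subtype.ext <| by
        change (((τ • c : 𝓞 L) : L) : QQb) = g ((b : ZB) : QQb)
        rw [show (((τ • c : 𝓞 L)) : L) = τ (c : L) from algebraMap_galRestrict_apply (𝓞 F) τ c]
        exact (hgx ⟨_, hmem⟩).symm
      rw [e2] at hc
      exact hc
    obtain ⟨k, hk, hkI⟩ := Places.exists_mul_mem_inertia V H hclosed g hcong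
    have hgH : g ∈ H := by
      simpa using H.mul_mem (H.inv_mem hk)
        (h ℓ hℓ V hV _ hkI ((cycloStab p).mul_mem (hHC hk) hgC))
    rw [← hfix, IntermediateField.mem_fixingSubgroup_iff] at hgH
    refine AlgEquiv.ext fun x => Subtype.ext ?_
    rw [← hgx]
    exact hgH x x.2
  have hdiff : differentIdeal (𝓞 F) (𝓞 L) = ⊤ := by
    by_contra hne'
    obtain ⟨P, hPmax, hle⟩ := Ideal.exists_le_maximal _ hne'
    have hP0 : P ≠ ⊥ := fun h0 => differentIdeal_ne_bot (A := 𝓞 F) (B := 𝓞 L) (le_bot_iff.1 (h0 ▸ hle))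
    exact (haveI := hPmax.isPrime; not_dvd_differentIdeal_iff.2 (hunr P hP0)) (Ideal.dvd_iff_le.2 hle)
  refine discr_bound_absurd hp hm L hmul.symm ?_
  have h1 := NumberField.natAbs_discr_eq_absNorm_differentIdeal_mul_natAbs_discr_pow F (𝓞 F) L (𝓞 L)
  rw [hdiff, Ideal.absNorm_top, one_mul] at h1
  have h2 : (discr F).natAbs = p ^ (p - 2) := by
    rw [IsCyclotomicExtension.Rat.discr_prime p F]
    simp [Int.natAbs_mul, Int.natAbs_pow]
  rw [Int.abs_eq_natAbs, h1, h2]
  push_cast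
  rfl

end FLTAgent.ModLift
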