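import Fermat.Agent.ModLift.Image.Local
import Fermat.Agent.ModLift.Image.Minkowski
import Fermat.Agent.LevelMatch.Unipotent
import Fermat.Agent.LevelMatch.Residual
import Fermat.Agent.TWPrimes.Glue.Residual
import Fermat.Agent.Reducible.Cyclotomic

/-!
# The mod `p` representation of a semistable curve, `p = 3, 5`: the image is `GL₂(𝔽_p)`
-/

set_option autoImplicit false
set_option linter.style.haveILetI false
set_option linter.unusedSectionVars false

noncomputable section

open scoped Classical WeierstrassCurve.Affine TensorProduct Pointwise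
open WeierstrassCurve WeierstrassCurve.Affine Matrix Polynomial IsLocalRing

namespace FLTAgent.ModLift

local notation "QQb" => AlgebraicClosure ℚ
local notation "GG" => (AlgebraicClosure ℚ ≃ₐ[ℚ] AlgebraicClosure ℚ)

open FLTAgent.LevelMatch (resW)
open FLTAgent.TWPrimes.Image (NoLine)
open FLTAgent.TWPrimes.Res (matHom val_matHom mulVec_matHom)

variable (W : WeierstrassCurve ℤ) (hΔ : W.Δ ≠ 0) (hW : W.IsSemistableModel) (p : ℕ)
  [hp : Fact p.Prime] (hp35 : p = 3 ∨ p = 5) (hirr : W.ModRepIsIrreducible p)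

local notation "rho" => resW W hΔ p

theorem det_rho (σ : GG) :
    LinearMap.det ((rho).ρ σ) = (ExtCitation.cycloExp p σ : ZMod p) := by
  haveI : NeZero p := ⟨hp.out.ne_zero⟩
  rw [← Reducible.omegaChar_eq]
  exact FrobTrace.det_eq_cyclotomic (p := p) W hΔ (ExtCitation.card_rootsOfUnity_eq_self p) σ

include hW hirr in
/-- Inertia away from `p` is unipotent. -/
theorem unipotent_inertia_mod (hp2 : p ≠ 2) {q : ℕ} (hq : q.Prime) (hqp : q ≠ p)
    {V : ValuationSubring QQb} (hV : V.LiesOverPrime q) {σ : GG}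
    (hσ : σ ∈ V.inertiaSubgroupIn ℚ) : ((rho).ρ σ - 1) * ((rho).ρ σ - 1) = 0 := by
  obtain ⟨B⟩ := LevelMatch.exists_tateBasis_curve hΔ p
  set r : GG →* Deformation.M2 ℤ_[p] := B.tateRep
  let S : Finset ℕ := insert p W.Δ.natAbs.primeFactors
  have hquad : ∀ ℓ : ℕ, ℓ.Prime → ℓ ∉ S → ∀ A : ValuationSubring QQb, A.LiesOverPrime ℓ →
      ∀ τ : GG, A.IsFrobeniusAt τ ℓ →
        r τ * r τ - ((W.apOfModel ℓ : ℤ) : ℤ_[p]) • r τ + (ℓ : ℤ_[p]) • 1 = 0 := by
    intro ℓ hℓ hℓS A hA τ hτ
    haveI : Fact ℓ.Prime := ⟨hℓ⟩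
    have hgood : W.IsGoodPrimeFor ℓ := fun h ↦ hℓS (Finset.mem_insert_of_mem
      (Nat.mem_primeFactors.mpr ⟨hℓ, Int.natCast_dvd.mp h, Int.natAbs_ne_zero.mpr hΔ⟩))
    exact LevelMatch.tate_quad B hgood (fun h => hℓS (h ▸ Finset.mem_insert_self p _)) hA hτ
  have hdet : ∀ σ : GG, (∀ n, DetCyclo.CycloExponent p n σ 1) → (r σ).det = 1 := fun σ hσ =>
    DetCyclo.eq_of_forall_sub_mem fun n => by
      simpa using DetCyclo.det_cyclo p (by rw [PadicInt.maximalIdeal_eq_span_p]; exact Ideal.mem_span_singleton_self _) r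
        (LevelMatch.matCts_tateRep hΔ B) S (Finset.mem_insert_self _ _)
        (fun ℓ => ((W.apOfModel ℓ : ℤ) : ℤ_[p])) hquad (LevelMatch.exists_not_scalar_tateRep B hirr)
        σ n 1 (hσ n)
  have h0 : (r σ - 1) * (r σ - 1) = 0 := by
    rw [← pow_two]; exact LevelMatch.tateRep_inertia B hΔ hW hp2 hdet hq hqp hV hσ
  refine LinearMap.ext fun x => ?_
  obtain ⟨u, hu⟩ := B.exists_pt 1 (T := (x.1)) (by
    rw [pow_one]; exact Torsion.mem_torsionBy_iff_nsmul.mp x.2)
  apply Subtype.ext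
  show σ • (σ • x.1 - x.1) - (σ • x.1 - x.1) = 0
  rw [← hu, B.smul_pt, ← map_sub, B.smul_pt, ← map_sub]
  show B.pt 1 (r σ *ᵥ (r σ *ᵥ u - u) - (r σ *ᵥ u - u)) = 0
  have e : r σ *ᵥ (r σ *ᵥ u - u) - (r σ *ᵥ u - u) = ((r σ - 1) * (r σ - 1)) *ᵥ u := by
    rw [← Matrix.mulVec_mulVec, Matrix.sub_mulVec, Matrix.one_mulVec, Matrix.sub_mulVec,
      Matrix.one_mulVec]
  rw [e, h0, Matrix.zero_mulVec, map_zero]

include hirr in
theorem isIrreducible_rho : (rho).IsIrreducible := fun V hV => hirr.2 V hV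

section Basis

variable (b : Module.Basis (Fin 2) (ZMod p) (resW W hΔ p).V)

include hirr in
theorem noLine_range : NoLine (matHom rho b).range := by
  intro v hv
  by_contra hcon
  push Not at hcon
  set w : (rho).V := b.equivFun.symm v with hw
  have hw0 : w ≠ 0 := fun h => hv (by
    have := congrArg b.equivFun h
    rwa [hw, LinearEquiv.apply_symm_apply, map_zero] at this)
  rcases isIrreducible_rho W hΔ p hirr ((ZMod p) ∙ w) (fun σ x hx => by
    obtain ⟨c, rfl⟩ := Submodule.mem_span_singleton.1 hx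
    obtain ⟨a, ha⟩ := hcon (matHom rho b σ) ⟨σ, rfl⟩
    have hσw : (rho).ρ σ w = a • w := b.equivFun.injective (by
      rw [← mulVec_matHom, map_smul, hw, LinearEquiv.apply_symm_apply, ha])
    rw [map_smul, hσw, smul_smul]
    exact Submodule.smul_mem _ _ (Submodule.mem_span_singleton_self _)) with h | h
  · exact hw0 (Submodule.span_singleton_eq_bot.1 h)
  · have h1 : Module.finrank (ZMod p) ↥((ZMod p) ∙ w) = 1 := finrank_span_singleton hw0
    have h2 := (rho).finrank_eq
    rw [h, finrank_top] at h1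
    omega

theorem dt_matHom (σ : GG) : dt (matHom rho b σ) = (ExtCitation.cycloExp p σ : ZMod p) := by
  show Matrix.det (LinearMap.toMatrix b b ((rho).ρ σ)) = _
  rw [LinearMap.det_toMatrix, det_rho]

theorem exists_dt_eq {c : ZMod p} (hc : c ≠ 0) : ∃ σ : GG, dt (matHom rho b σ) = c := by
  obtain ⟨ζ, hζ⟩ := Reducible.exists_primitiveRoot p
  obtain ⟨σ, hσ⟩ := Lowering.P8.exists_cyclo p hζ (c := c.val) (fun h => hc (by
    rw [← ZMod.natCast_zmod_val c]; exact (ZMod.natCast_eq_zero_iff _ _).2 h))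
  refine ⟨σ, ?_⟩
  rw [dt_matHom, ← ZMod.natCast_zmod_val c, ZMod.natCast_eq_natCast_iff]
  rw [Reducible.map_eq_pow_cycloExp p σ hζ.pow_eq_one] at hσ
  have hu : IsUnit ζ := hζ.isUnit hp.out.ne_zero
  have h' : hu.unit ^ ExtCitation.cycloExp p σ = hu.unit ^ c.val := Units.ext (by
    simp only [Units.val_pow_eq_pow_val, IsUnit.unit_spec]; exact hσ)
  have h3 := pow_eq_pow_iff_modEq.mp h'
  rwa [← orderOf_units, IsUnit.unit_spec, ← hζ.eq_orderOf] at h3

theorem mem_cycloStab_iff_dt (σ : GG) : σ ∈ cycloStab p ↔ dt (matHom rho b σ) = 1 := by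
  haveI : NeZero p := ⟨hp.out.ne_zero⟩
  obtain ⟨ζ, hζ⟩ := Reducible.exists_primitiveRoot p
  rw [dt_matHom, mem_cycloStab_iff hζ, Reducible.map_eq_pow_cycloExp p σ hζ.pow_eq_one]
  constructor
  · intro h
    have h' : Reducible.omegaChar p σ = 1 := Reducible.omegaChar_eq_one_of_fix p hζ
      ((Reducible.map_eq_pow_cycloExp p σ hζ.pow_eq_one).trans h)
    rw [← Reducible.omegaChar_eq, h', Units.val_one]
  · intro h
    rw [← Nat.cast_one, ZMod.natCast_eq_natCast_iff] at h
    calc ζ ^ ExtCitation.cycloExp p σ = ζ ^ (ExtCitation.cycloExp p σ % p) :=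
          pow_eq_pow_mod _ hζ.pow_eq_one
      _ = ζ ^ (1 % p) := by rw [h]
      _ = ζ := by rw [Nat.mod_eq_of_lt hp.out.one_lt, pow_one]

theorem matHom_level : ∃ L : IntermediateField ℚ QQb, FiniteDimensional ℚ L ∧
    ∀ σ : GG, (∀ x ∈ L, σ x = x) → matHom rho b σ = 1 := by
  obtain ⟨L, hL, h1⟩ := (rho).factorsThroughFiniteLevel
  exact ⟨L, hL, fun σ hσ => TWPrimes.Res.matHom_eq_one rho b (h1 σ hσ)⟩

include hW hp35 hirr in
/-- The order of the image is divisible by `p`. -/
theorem dvd_card_range : p ∣ Nat.card (matHom rho b).range := by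
  by_contra hcard
  set r := matHom rho b with hr
  have hp2 : p ≠ 2 := by rcases hp35 with rfl | rfl <;> decide
  obtain ⟨L, hL, hlev⟩ := matHom_level W hΔ p b
  haveI := hL
  -- inertia away from `p` is trivial
  have haway : ∀ q : ℕ, q.Prime → q ≠ p → ∀ V : ValuationSubring QQb, V.LiesOverPrime q →
      ∀ σ ∈ V.inertiaSubgroupIn ℚ, r σ = 1 := by
    intro q hq hqp V hV σ hσ
    have hu := unipotent_inertia_mod W hΔ hW p hirr hp2 hq hqp hV hσ
    have hN : ((r σ : Matrix (Fin 2) (Fin 2) (ZMod p)) - 1) *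
        ((r σ : Matrix (Fin 2) (Fin 2) (ZMod p)) - 1) = 0 := by
      rw [hr, val_matHom, ← LinearMap.toMatrix_one b, ← map_sub, ← LinearMap.toMatrix_mul, hu,
        map_zero]
    haveI : CharP (Matrix (Fin 2) (Fin 2) (ZMod p)) p := inferInstance
    have hpow : r σ ^ p = 1 := Units.ext (by
      rw [Units.val_pow_eq_pow_val, Units.val_one]
      refine sub_eq_zero.1 ?_
      have h2 : ((r σ : Matrix (Fin 2) (Fin 2) (ZMod p)) - 1) ^ p = 0 :=
        pow_eq_zero_of_le hp.out.two_le (by rw [pow_two]; exact hN)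
      rwa [sub_pow_char_of_commute p (Commute.one_right _), one_pow] at h2)
    have h1 : orderOf (r σ) ∣ Nat.card r.range := by
      have h0 := orderOf_dvd_natCard (⟨r σ, σ, rfl⟩ : r.range)
      rwa [← orderOf_injective r.range.subtype Subtype.val_injective] at h0
    rcases (Nat.dvd_prime hp.out).1 (orderOf_dvd_of_pow_eq_one hpow) with h | h
    · exact orderOf_eq_one_iff.1 h
    · rw [h] at h1; exact absurd h1 hcard
  -- inertia at `p`
  obtain ⟨P, hP⟩ := Frobenius.exists_liesOverPrime p hp.out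
  obtain ⟨σ₀, hσ₀, φ, hconj, hgen⟩ := exists_tame_generator r ⟨L, hL, hlev⟩ hcard hP
  set s := r σ₀ with hs
  have hat : ∀ V : ValuationSubring QQb, V.LiesOverPrime p → ∀ σ ∈ V.inertiaSubgroupIn ℚ,
      ∃ (g : GG) (k : ℕ), r σ = r g * s ^ k * (r g)⁻¹ := by
    intro V hV σ hσ
    obtain ⟨g, rfl⟩ := Places.exists_smul_eq hp.out hP hV
    have h1 := Places.conj_mem_inertia _ hσ g⁻¹
    rw [inv_smul_smul, inv_inv] at h1
    obtain ⟨k, hk⟩ := hgen _ h1
    refine ⟨g, k, ?_⟩
    rw [← hk, map_mul, map_mul, map_inv]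
    group
  have hdtcomm : ∀ σ τ : GG, dt (r (τ * σ * τ⁻¹)) = dt (r σ) := fun σ τ => by
    rw [map_mul, map_mul, map_inv, dt_conj]
  -- the determinant of `s` generates
  have hdetgen : ∀ c : ZMod p, c ≠ 0 → ∃ k : ℕ, dt s ^ k = c := by
    let H : Subgroup GG :=
      { carrier := {σ | ∃ k : ℕ, dt s ^ k = dt (r σ)}
        one_mem' := ⟨0, by simp [dt]⟩
        mul_mem' := fun {a b} ⟨k, hk⟩ ⟨l, hl⟩ => ⟨k + l, by
          rw [pow_add, hk, hl, map_mul, dt_mul]⟩
        inv_mem' := fun {a} ⟨k, hk⟩ => ⟨k * (p - 2), by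
          rw [pow_mul, hk]
          have h2 : dt (r a) * dt (r a⁻¹) = 1 := by
            rw [← dt_mul, ← map_mul, mul_inv_cancel, map_one]; simp [dt]
          have h3 : dt (r a) * dt (r a) ^ (p - 2) = 1 := by
            rw [← pow_succ', show p - 2 + 1 = p - 1 by have := hp.out.two_le; omega,
              ZMod.pow_card_sub_one_eq_one (dt_ne_zero _)]
          exact mul_left_cancel₀ (dt_ne_zero _) (h3.trans h2.symm)⟩ }
    haveI : H.Normal := ⟨fun σ hσ τ => by
      obtain ⟨k, hk⟩ := hσ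
      exact ⟨k, by rw [hdtcomm, hk]⟩⟩
    have hle : L.fixingSubgroup ≤ H := fun σ hσ => ⟨0, by
      rw [hlev σ ((IntermediateField.mem_fixingSubgroup_iff _ _).1 hσ)]; simp [dt]⟩
    have htop := Places.eq_top_of_forall_inertia_le H
      (Subgroup.isOpen_mono hle L.fixingSubgroup_isOpen) (fun ℓ hℓ V hV σ hσ => by
        rcases eq_or_ne ℓ p with rfl | hne
        · obtain ⟨g, k, hk⟩ := hat V hV σ hσ
          exact ⟨k, by rw [hk, dt_conj, dt_pow]⟩
        · exact ⟨0, by rw [haway ℓ hℓ hne V hV σ hσ]; simp [dt]⟩)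
    intro c hc
    obtain ⟨σ, hσ⟩ := exists_dt_eq W hΔ p b hc
    obtain ⟨k, hk⟩ := (htop ▸ Subgroup.mem_top σ : σ ∈ H)
    exact ⟨k, hk.trans hσ⟩
  refine not_tameImage hp35 r.range s (r φ) ⟨noLine_range W hΔ p hirr b, hcard, ⟨σ₀, rfl⟩,
    ⟨φ, rfl⟩, hconj, hdetgen, ?_⟩
  intro M hMle hMn ht
  let H : Subgroup GG := M.comap r ⊓ cycloStab p
  haveI : H.Normal := ⟨fun σ hσ τ => by
    refine ⟨?_, ?_⟩
    · show r (τ * σ * τ⁻¹) ∈ M
      rw [map_mul, map_mul, map_inv]
      exact hMn _ ⟨τ, rfl⟩ _ hσ.1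
    · show τ * σ * τ⁻¹ ∈ cycloStab p
      rw [mem_cycloStab_iff_dt W hΔ p b, ← hr, hdtcomm, hr, ← mem_cycloStab_iff_dt W hΔ p b]
      exact hσ.2⟩
  have hle : L.fixingSubgroup ≤ H := fun σ hσ => by
    have h1 := hlev σ ((IntermediateField.mem_fixingSubgroup_iff _ _).1 hσ)
    refine ⟨?_, ?_⟩
    · show r σ ∈ M
      rw [h1]; exact M.one_mem
    · show σ ∈ cycloStab p
      rw [mem_cycloStab_iff_dt W hΔ p b, ← hr, h1]; simp [dt]
  have hC := cycloStab_le_of_forall_inertia hp35 H (Subgroup.isOpen_mono hle L.fixingSubgroup_isOpen)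
    inf_le_right (fun ℓ hℓ V hV σ hσ hσC => ⟨?_, hσC⟩)
  · rintro _ ⟨⟨σ, rfl⟩, hσ⟩
    exact (hC ((mem_cycloStab_iff_dt W hΔ p b σ).2 (mem_sl.1 hσ))).1
  · show r σ ∈ M
    rcases eq_or_ne ℓ p with rfl | hne
    · obtain ⟨g, k, hk⟩ := hat V hV σ hσ
      rw [hk]
      refine hMn _ ⟨g, rfl⟩ _ ?_
      have h1 : dt s ^ k = 1 := by
        have h2 := (mem_cycloStab_iff_dt W hΔ ℓ b σ).1 hσC
        rw [← hr, hk, dt_conj, dt_pow] at h2
        exact h2
      have hord : ℓ - 1 ∣ k := by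
        refine Nat.dvd_trans ?_ (orderOf_dvd_of_pow_eq_one h1)
        obtain ⟨c, hc⟩ := IsCyclic.exists_generator (α := (ZMod ℓ)ˣ)
        obtain ⟨j, hj⟩ := hdetgen c c.ne_zero
        have hcord : orderOf (c : ZMod ℓ) = ℓ - 1 := by
          rw [orderOf_units, orderOf_eq_card_of_forall_mem_zpowers hc, Nat.card_eq_fintype_card,
            ZMod.card_units]
        rw [← hcord, ← hj]
        exact orderOf_pow_dvd j
      obtain ⟨j, rfl⟩ := hord
      rw [pow_mul]
      exact M.pow_mem ht j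
    · rw [haway ℓ hℓ hne V hV σ hσ]
      exact M.one_mem

include hW hp35 hirr in
/-- The image is everything. -/
theorem image_matHom_surjective : Function.Surjective (matHom rho b) := by
  intro g
  obtain ⟨σ, hσ⟩ := exists_dt_eq W hΔ p b (dt_ne_zero g)
  have hmem : (matHom rho b σ)⁻¹ * g ∈ (matHom rho b).range :=
    sl_le_of_dvd (noLine_range W hΔ p hirr b) (dvd_card_range W hΔ hW p hp35 hirr b) (by
      show dt _ = 1
      have h1 := dt_mul (matHom rho b σ) ((matHom rho b σ)⁻¹ * g)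
      rw [mul_inv_cancel_left, hσ] at h1
      exact mul_left_cancel₀ (dt_ne_zero g) (h1.symm.trans (mul_one _).symm))
  obtain ⟨τ, hτ⟩ := hmem
  exact ⟨σ * τ, by rw [map_mul, hτ, mul_inv_cancel_left]⟩

end Basis

/-- A basis of the representation space. -/
def stdBasis : Module.Basis (Fin 2) (ZMod p) (rho).V :=
  Module.finBasisOfFinrankEq (ZMod p) (rho).V (rho).finrank_eq

include hW hp35 hirr in
theorem exists_toMatrix_eq (A : Matrix (Fin 2) (Fin 2) (ZMod p)) (hA : A.det ≠ 0) :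
    ∃ σ : GG, LinearMap.toMatrix (stdBasis W hΔ p) (stdBasis W hΔ p) ((rho).ρ σ) = A := by
  obtain ⟨σ, hσ⟩ := image_matHom_surjective W hΔ hW p hp35 hirr (stdBasis W hΔ p)
    (Matrix.GeneralLinearGroup.mkOfDetNeZero A hA)
  exact ⟨σ, (val_matHom rho _ σ).symm.trans (by rw [hσ]; rfl)⟩

section Extension

variable (k : Type) [Field k] [Algebra (ZMod p) k]

include hW hp35 hirr in
/-- No line is stable under an index-two subgroup, over any field. -/
theorem eq_bot_or_top_of_index_two (G : Subgroup GG) (hG : G.index = 1 ∨ G.index = 2)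
    (ρ' : ResidualGaloisRep k) (b' : Module.Basis (Fin 2) k ρ'.V)
    (hb' : ∀ σ, LinearMap.toMatrix b' b' (ρ'.ρ σ) =
      (LinearMap.toMatrix (stdBasis W hΔ p) (stdBasis W hΔ p) ((rho).ρ σ)).map (algebraMap (ZMod p) k))
    (V : Submodule k ρ'.V) (hV : ∀ σ ∈ G, ∀ x ∈ V, ρ'.ρ σ x ∈ V) : V = ⊥ ∨ V = ⊤ := by
  have hp2 : (2 : ZMod p) ≠ 0 := by
    intro h
    have h' : ((2 : ℕ) : ZMod p) = 0 := by exact_mod_cast h
    rw [ZMod.natCast_eq_zero_iff] at h'
    rcases hp35 with rfl | rfl <;> omega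
  have hsq : ∀ σ : GG, σ * σ ∈ G := fun σ => by
    rcases hG with h | h
    · rw [Subgroup.index_eq_one.1 h]; trivial
    · exact Subgroup.mul_self_mem_of_index_two h σ
  -- the unipotent matrices act on `V`
  have hroot : ∀ A : Matrix (Fin 2) (Fin 2) (ZMod p), A.det = 1 → A * A = (2 : ZMod p) • A - 1 →
      ∀ x ∈ V, b'.equivFun.symm ((A.map (algebraMap (ZMod p) k)) *ᵥ b'.equivFun x) ∈ V := by
    intro A hd hA x hx
    -- the square root `(A + 1) / 2`
    set h : ZMod p := (2 : ZMod p)⁻¹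
    have hh : h * 2 = 1 := inv_mul_cancel₀ hp2
    have hA2 : A * A = (2 : ZMod p) • A - 1 := hA
    have hsqrt : (h • (A + 1)) * (h • (A + 1)) = A := by
      simp only [smul_mul_assoc, mul_smul_comm, add_mul, mul_add, one_mul, mul_one, hA2]
      match_scalars
      · linear_combination (2 * h + 1) * hh
      · ring
    have hdR : (h • (A + 1)).det ≠ 0 := fun h0 => by
      have := congrArg Matrix.det hsqrt
      rw [Matrix.det_mul, h0, zero_mul, hd] at this
      exact zero_ne_one this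
    obtain ⟨σ, hσ⟩ := exists_toMatrix_eq W hΔ hW p hp35 hirr _ hdR
    have hm := hV _ (hsq σ) x hx
    convert hm using 1
    apply b'.equivFun.injective
    rw [LinearEquiv.apply_symm_apply]
    show _ = ⇑(b'.repr (ρ'.ρ (σ * σ) x))
    rw [← LinearMap.toMatrix_mulVec_repr b' b' (ρ'.ρ (σ * σ)) x, map_mul, LinearMap.toMatrix_mul,
      hb', hσ, ← Matrix.map_mul, hsqrt]
    rfl
  by_contra hne
  push Not at hne
  obtain ⟨x, hx, hx0⟩ := V.exists_mem_ne_zero_of_ne_bot hne.1
  refine hne.2 ?_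
  set c := b'.equivFun x
  have hU : c 1 • b' 0 ∈ V := by
    have h1 := V.sub_mem (hroot !![1, 1; 0, 1] (by simp [Matrix.det_fin_two_of]) (by
      ext i j; fin_cases i <;> fin_cases j <;> simp [Matrix.mul_apply, Fin.sum_univ_two] <;> ring) x hx) hx
    convert h1 using 1
    apply b'.equivFun.injective
    rw [map_sub, LinearEquiv.apply_symm_apply, map_smul]
    funext i
    fin_cases i <;> simp [c, Matrix.mulVec, dotProduct, Fin.sum_univ_two]
  have hL : c 0 • b' 1 ∈ V := by
    have h1 := V.sub_mem (hroot !![1, 0; 1, 1] (by simp [Matrix.det_fin_two_of]) (by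
      ext i j; fin_cases i <;> fin_cases j <;> simp [Matrix.mul_apply, Fin.sum_univ_two] <;> ring) x hx) hx
    convert h1 using 1
    apply b'.equivFun.injective
    rw [map_sub, LinearEquiv.apply_symm_apply, map_smul]
    funext i
    fin_cases i <;> simp [c, Matrix.mulVec, dotProduct, Fin.sum_univ_two]
  have hdec : x = c 0 • b' 0 + c 1 • b' 1 := by
    conv_lhs => rw [← b'.sum_equivFun x, Fin.sum_univ_two]
  -- both basis vectors lie in `V`
  suffices h01 : b' 0 ∈ V ∧ b' 1 ∈ V by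
    refine eq_top_iff.2 fun y _ => ?_
    rw [← b'.sum_equivFun y, Fin.sum_univ_two]
    exact V.add_mem (V.smul_mem _ h01.1) (V.smul_mem _ h01.2)
  by_cases h1 : c 1 = 0
  · have h0 : c 0 ≠ 0 := fun h0 => hx0 (by rw [hdec, h0, h1, zero_smul, zero_smul, add_zero])
    have hb0 : b' 0 ∈ V := by
      rw [hdec, h1, zero_smul, add_zero] at hx
      exact (Submodule.smul_mem_iff _ h0).1 hx
    exact ⟨hb0, (Submodule.smul_mem_iff _ h0).1 hL⟩
  · have hb0 : b' 0 ∈ V := (Submodule.smul_mem_iff _ h1).1 hU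
    refine ⟨hb0, ?_⟩
    rw [hdec] at hx
    have := V.sub_mem hx (V.smul_mem (c 0) hb0)
    rw [add_sub_cancel_left] at this
    exact (Submodule.smul_mem_iff _ h1).1 this

theorem toMatrix_baseChange_rho (σ : GG) :
    LinearMap.toMatrix (Algebra.TensorProduct.basis k (stdBasis W hΔ p)) (Algebra.TensorProduct.basis k (stdBasis W hΔ p))
        (((rho).baseChange k).ρ σ) =
      (LinearMap.toMatrix (stdBasis W hΔ p) (stdBasis W hΔ p) ((rho).ρ σ)).map
        (algebraMap (ZMod p) k) :=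
  LinearMap.toMatrix_baseChange k ((rho).ρ σ) (stdBasis W hΔ p) (stdBasis W hΔ p)

include hW hp35 hirr in
theorem isIrreducible_baseChange : ((rho).baseChange k).IsIrreducible := fun V hV =>
  eq_bot_or_top_of_index_two W hΔ hW p hp35 hirr k ⊤ (Or.inl Subgroup.index_top)
    ((rho).baseChange k) (Algebra.TensorProduct.basis k (stdBasis W hΔ p)) (toMatrix_baseChange_rho W hΔ p k) V
    (fun σ _ => hV σ)

theorem toMatrix_baseChange_baseChange (K : Type) [Field K] [Algebra k K] [Algebra (ZMod p) K]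
    [IsScalarTower (ZMod p) k K] (σ : GG) :
    LinearMap.toMatrix (Algebra.TensorProduct.basis K (Algebra.TensorProduct.basis k (stdBasis W hΔ p)))
        (Algebra.TensorProduct.basis K (Algebra.TensorProduct.basis k (stdBasis W hΔ p)))
        ((((rho).baseChange k).baseChange K).ρ σ) =
      (LinearMap.toMatrix (stdBasis W hΔ p) (stdBasis W hΔ p) ((rho).ρ σ)).map
        (algebraMap (ZMod p) K) := by
  refine (LinearMap.toMatrix_baseChange K (((rho).baseChange k).ρ σ)
    (Algebra.TensorProduct.basis k (stdBasis W hΔ p)) (Algebra.TensorProduct.basis k (stdBasis W hΔ p))).trans ?_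
  rw [toMatrix_baseChange_rho, Matrix.map_map]
  congr 1
  exact funext fun a => (IsScalarTower.algebraMap_apply (ZMod p) k K a).symm

include hW hp35 hirr in
/-- Irreducible on every subgroup of index two, over every extension of the coefficients. -/
theorem index_two_baseChange (K : Type) [Field K] [Algebra k K] (G : Subgroup GG)
    (hG : G.index = 2) (V : Submodule K (((rho).baseChange k).baseChange K).V)
    (hV : ∀ σ ∈ G, ∀ x ∈ V, (((rho).baseChange k).baseChange K).ρ σ x ∈ V) : V = ⊥ ∨ V = ⊤ := by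
  letI : Algebra (ZMod p) K := ((algebraMap k K).comp (algebraMap (ZMod p) k)).toAlgebra
  haveI : IsScalarTower (ZMod p) k K := IsScalarTower.of_algebraMap_eq' rfl
  exact eq_bot_or_top_of_index_two W hΔ hW p hp35 hirr K G (Or.inr hG)
    (((rho).baseChange k).baseChange K) _ (toMatrix_baseChange_baseChange W hΔ p k K) V hV

include hW hp35 hirr in
theorem isAbsolutelyIrreducible_baseChange : ((rho).baseChange k).IsAbsolutelyIrreducible := by
  intro V hV
  exact eq_bot_or_top_of_index_two W hΔ hW p hp35 hirr (AlgebraicClosure k) ⊤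
    (Or.inl Subgroup.index_top) (((rho).baseChange k).baseChange (AlgebraicClosure k)) _
    (toMatrix_baseChange_baseChange W hΔ p k (AlgebraicClosure k)) V (fun σ _ => hV σ)

/-- The determinant is the cyclotomic character. -/
theorem detIsCyclotomic_baseChange :
    (GaloisRepAdic.ofResidualGaloisRep ((rho).baseChange k)).DetIsCyclotomic p := by
  have hp0 : (p : k) = 0 := by
    rw [← map_natCast (algebraMap (ZMod p) k), ZMod.natCast_self, map_zero]
  refine ⟨by rw [hp0]; exact zero_mem _, fun n σ a ha => ?_⟩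
  rcases Nat.eq_zero_or_pos n with rfl | hn
  · simp
  have hpn : ((p ^ n : ℕ) : k) = 0 := by rw [Nat.cast_pow, hp0, zero_pow hn.ne']
  rw [hpn, Ideal.span_singleton_eq_bot.2 rfl, Ideal.mem_bot, sub_eq_zero]
  show LinearMap.det (((rho).ρ σ).baseChange k) = _
  rw [LinearMap.det_baseChange, det_rho, map_natCast]
  obtain ⟨ζ, hζ⟩ := Reducible.exists_primitiveRoot p
  obtain ⟨m, hm⟩ : ∃ m, n = m + 1 := ⟨n - 1, by omega⟩
  have hζn : ζ ^ p ^ n = 1 := by rw [hm, pow_succ', pow_mul, hζ.pow_eq_one, one_pow]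
  have h := ha ζ hζn
  rw [Reducible.map_eq_pow_cycloExp p σ hζ.pow_eq_one] at h
  have hu : IsUnit ζ := hζ.isUnit hp.out.ne_zero
  have h' : hu.unit ^ ExtCitation.cycloExp p σ = hu.unit ^ a := Units.ext (by
    simp only [Units.val_pow_eq_pow_val, IsUnit.unit_spec]; exact h)
  have h3 := pow_eq_pow_iff_modEq.mp h'
  rw [← orderOf_units, IsUnit.unit_spec, ← hζ.eq_orderOf, ← ZMod.natCast_eq_natCast_iff] at h3
  calc (ExtCitation.cycloExp p σ : k) = algebraMap (ZMod p) k (ExtCitation.cycloExp p σ : ZMod p) :=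
        (map_natCast _ _).symm
    _ = a := by rw [h3, map_natCast]

include hW hp35 hirr in
/-- A commutator with trace different from two. -/
theorem big_baseChange : ∃ g h : GG,
    LinearMap.trace k ((rho).baseChange k).V (((rho).baseChange k).ρ (g * h * g⁻¹ * h⁻¹)) ≠ 2 := by
  obtain ⟨g, hg⟩ := image_matHom_surjective W hΔ hW p hp35 hirr (stdBasis W hΔ p)
    (Matrix.GeneralLinearGroup.mkOfDetNeZero !![1, 1; 0, 1] (by simp [Matrix.det_fin_two_of]))
  obtain ⟨h, hh⟩ := image_matHom_surjective W hΔ hW p hp35 hirr (stdBasis W hΔ p)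
    (Matrix.GeneralLinearGroup.mkOfDetNeZero !![1, 0; 1, 1] (by simp [Matrix.det_fin_two_of]))
  refine ⟨g, h, fun he => ?_⟩
  rw [LinearMap.trace_eq_matrix_trace k (Algebra.TensorProduct.basis k (stdBasis W hΔ p)),
    toMatrix_baseChange_rho, ← val_matHom] at he
  rw [Matrix.trace_fin_two, Matrix.map_apply, Matrix.map_apply, ← map_add,
    ← map_ofNat (algebraMap (ZMod p) k) 2, ← Matrix.trace_fin_two] at he
  have h3 := (algebraMap (ZMod p) k).injective he
  simp only [map_mul, map_inv, Units.val_mul, Matrix.coe_units_inv, hg, hh] at h3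
  simp [Matrix.GeneralLinearGroup.mkOfDetNeZero, Matrix.inv_def, Matrix.adjugate_fin_two,
    Matrix.det_fin_two_of, Matrix.trace_fin_two] at h3
  exact one_ne_zero (α := ZMod p) (by linear_combination h3)

include hW hp35 hirr in
/-- Frobenius elements with distinct eigenvalues outside any finite set. -/
theorem exists_frobenius_distinct (S : Finset ℕ) :
    ∃ q : ℕ, q.Prime ∧ q ∉ S ∧ ∃ V : ValuationSubring QQb, V.LiesOverPrime q ∧
      ∃ φ : GG, V.IsFrobeniusAt φ q ∧ ∃ α β : k, α ≠ β ∧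
        LinearMap.charpoly (((rho).baseChange k).ρ φ) = (X - C α) * (X - C β) := by
  have h2 : (2 : ZMod p) ≠ 0 := by
    intro h
    have h' : ((2 : ℕ) : ZMod p) = 0 := by exact_mod_cast h
    rw [ZMod.natCast_eq_zero_iff] at h'
    rcases hp35 with rfl | rfl <;> omega
  have h10 : (-1 : ZMod p) ≠ 1 := fun h => h2 (by linear_combination (-1 : ZMod p) * h)
  obtain ⟨σ, hσ⟩ := exists_toMatrix_eq W hΔ hW p hp35 hirr !![1, 0; 0, -1]
    (by simp [Matrix.det_fin_two_of])
  obtain ⟨L, hL, hfix⟩ := (rho).factorsThroughFiniteLevel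
  haveI := hL
  obtain ⟨q, V, φ, j, hq, hqS, hV, hφ, heq⟩ := Frobenius.exists_frobenius_pow_eqOn L σ S
  refine ⟨q, hq, hqS, V, hV, φ, hφ, ?_⟩
  set b := stdBasis W hΔ p
  set A := LinearMap.toMatrix b b ((rho).ρ φ)
  have hpow : A ^ j = !![1, 0; 0, -1] := by
    rw [← hσ]
    have e : (rho).ρ σ = (rho).ρ φ ^ j := by
      have h1 := hfix ((φ ^ j)⁻¹ * σ) (fun x hx => by
        rw [AlgEquiv.mul_apply, heq x hx]; exact (φ ^ j).symm_apply_apply x)
      rw [← map_pow, ← mul_inv_cancel_left (φ ^ j) σ, map_mul, h1, mul_one]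
    rw [e]
    exact (map_pow (LinearMap.toMatrixAlgEquiv b) ((rho).ρ φ) j).symm
  -- `A` commutes with the diagonal matrix
  have hc : A * !![1, 0; 0, -1] = !![1, 0; 0, -1] * A := by
    rw [← hpow, ← pow_succ', ← pow_succ]
  have e01 : A 0 1 = 0 := by
    have := congrFun (congrFun hc 0) 1
    simp [Matrix.mul_apply, Fin.sum_univ_two] at this
    exact (mul_eq_zero.1 (show 2 * A 0 1 = 0 by linear_combination -this)).resolve_left h2
  have e10 : A 1 0 = 0 := by
    have := congrFun (congrFun hc 1) 0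
    simp [Matrix.mul_apply, Fin.sum_univ_two] at this
    exact (mul_eq_zero.1 (show 2 * A 1 0 = 0 by linear_combination this)).resolve_left h2
  have hne : A 0 0 ≠ A 1 1 := by
    intro h
    have hs : A = A 0 0 • (1 : Matrix (Fin 2) (Fin 2) (ZMod p)) := by
      ext i j; fin_cases i <;> fin_cases j <;> simp [e01, e10, h]
    rw [hs, _root_.smul_pow, one_pow] at hpow
    have a0 := congrFun (congrFun hpow 0) 0
    have a1 := congrFun (congrFun hpow 1) 1
    simp at a0 a1
    exact h10 (a1.symm.trans a0)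
  refine ⟨algebraMap (ZMod p) k (A 0 0), algebraMap (ZMod p) k (A 1 1),
    fun h => hne ((algebraMap (ZMod p) k).injective h), ?_⟩
  show LinearMap.charpoly (((rho).ρ φ).baseChange k) = _
  rw [LinearMap.charpoly_baseChange, ← LinearMap.charpoly_toMatrix ((rho).ρ φ) b,
    Matrix.charpoly_fin_two, Matrix.trace_fin_two, Matrix.det_fin_two]
  change (X ^ 2 - C (A 0 0 + A 1 1) * X + C (A 0 0 * A 1 1 - A 0 1 * A 1 0)).map _ = _
  rw [e01, e10]
  simp only [mul_zero, sub_zero, Polynomial.map_add, Polynomial.map_sub, Polynomial.map_mul,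
    Polynomial.map_pow, Polynomial.map_X, Polynomial.map_C, map_add, map_mul]
  ring

end Extension

end FLTAgent.ModLift
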