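import Fermat.Agent.Lowering.P8.Image
import Fermat.Agent.FlatLocal.Residual
import Fermat.Agent.TWPrimes.Image.Basic

/-!
# Subgroups of `GL₂(𝔽_p)` without invariant line

If `p` divides the order such a group contains `SL₂(𝔽_p)`.  For `p = 3, 5` the group cannot have
order prime to `p` when it is the image of a tamely ramified representation with cyclotomic
determinant: this is the group theoretic half of that statement.
-/

set_option autoImplicit false
set_option linter.style.haveILetI false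

noncomputable section

open Matrix

namespace FLTAgent.ModLift

open FLTAgent.TWPrimes.Image (NoLine)
open FLTAgent.FlatLocal (cayley NoEigen)

variable {p : ℕ} [hp : Fact p.Prime]

local notation "M2" => Matrix (Fin 2) (Fin 2) (ZMod p)
local notation "GL2" => GL (Fin 2) (ZMod p)

/-- The determinant in the prime field. -/
abbrev dt (g : GL2) : ZMod p := Matrix.det (g : M2)

theorem dt_ne_zero (g : GL2) : dt g ≠ 0 := TWPrimes.Image.det_val_ne g

theorem dt_mul (g h : GL2) : dt (g * h) = dt g * dt h := by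
  simp [dt]

theorem dt_pow (g : GL2) (n : ℕ) : dt (g ^ n) = dt g ^ n := by
  simp [dt, Matrix.det_pow]

/-- The elements of determinant one. -/
def sl : Subgroup GL2 where
  carrier := {g | dt g = 1}
  one_mem' := by simp [dt]
  mul_mem' := fun {a b} ha hb => by
    simp only [Set.mem_ofPred_eq] at ha hb ⊢; rw [dt_mul, ha, hb, one_mul]
  inv_mem' := fun {a} ha => by
    simp only [Set.mem_ofPred_eq] at ha ⊢
    have h := dt_mul a a⁻¹
    rw [mul_inv_cancel, ha, one_mul] at h
    simpa [dt] using h.symm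

theorem mem_sl {g : GL2} : g ∈ sl ↔ dt g = 1 := Iff.rfl

theorem dt_conj (g h : GL2) : dt (g * h * g⁻¹) = dt h := by
  have h1 := dt_mul g g⁻¹
  rw [mul_inv_cancel] at h1
  rw [dt_mul, dt_mul, mul_right_comm, ← h1]
  simp [dt]

/-- The rows of the unipotent matrices. -/
theorem eq_upper {A : M2} (h : A *ᵥ ![1, 0] = ![1, 0]) (hd : A.det = 1) :
    A = !![1, A 0 1; 0, 1] := by
  have h00 : A 0 0 = 1 := by simpa [Matrix.mulVec, dotProduct, Fin.sum_univ_two] using congrFun h 0
  have h10 : A 1 0 = 0 := by simpa [Matrix.mulVec, dotProduct, Fin.sum_univ_two] using congrFun h 1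
  rw [Matrix.det_fin_two, h00, h10, one_mul, mul_zero, sub_zero] at hd
  ext i j; fin_cases i <;> fin_cases j <;> simp [h00, h10, hd]

theorem eq_lower {A : M2} (h : A *ᵥ ![0, 1] = ![0, 1]) (hd : A.det = 1) :
    A = !![1, 0; A 1 0, 1] := by
  have h01 : A 0 1 = 0 := by simpa [Matrix.mulVec, dotProduct, Fin.sum_univ_two] using congrFun h 0
  have h11 : A 1 1 = 1 := by simpa [Matrix.mulVec, dotProduct, Fin.sum_univ_two] using congrFun h 1
  rw [Matrix.det_fin_two, h01, h11, mul_one, zero_mul, sub_zero] at hd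
  ext i j; fin_cases i <;> fin_cases j <;> simp [h01, h11, hd]

/-- A group without invariant line whose order is divisible by `p` contains `SL₂`. -/
theorem sl_le_of_dvd {G : Subgroup GL2} (hirr : NoLine G) (hdvd : p ∣ Nat.card G) : sl ≤ G := by
  classical
  obtain ⟨⟨u, huG⟩, hu⟩ := exists_prime_orderOf_dvd_card' p hdvd
  have hup : u ^ p = 1 := by
    have h := pow_orderOf_eq_one (⟨u, huG⟩ : G)
    rw [hu] at h
    exact congrArg Subtype.val h
  have hu1 : u ≠ 1 := by
    intro h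
    subst h
    rw [show (⟨1, huG⟩ : G) = 1 from rfl, orderOf_one] at hu
    exact hp.out.one_lt.ne hu
  have hud : dt u = 1 := by
    have h := congrArg dt hup
    rw [dt_pow, ZMod.pow_card] at h
    simpa [dt] using h
  have hN : ((u : M2) - 1) * ((u : M2) - 1) = 0 := by
    refine FlatLocal.sq_eq_zero_of_pow (n := p) ?_
    haveI : CharP M2 p := inferInstance
    rw [sub_pow_char_of_commute p (Commute.one_right _), one_pow, ← Units.val_pow_eq_pow_val, hup,
      Units.val_one, sub_self]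
  obtain ⟨j, hj⟩ : ∃ j, ((u : M2) - 1) *ᵥ Pi.single j 1 ≠ 0 := by
    by_contra h
    push Not at h
    refine hu1 (Units.ext ?_)
    refine Matrix.ext_of_mulVec_single fun j => ?_
    have := h j
    rw [Matrix.sub_mulVec, Matrix.one_mulVec, sub_eq_zero] at this
    rw [this, Units.val_one, Matrix.one_mulVec]
  set v := ((u : M2) - 1) *ᵥ Pi.single j 1
  have huv : (u : M2) *ᵥ v = v := by
    rw [← sub_eq_zero, ← Matrix.one_mulVec v, Matrix.mulVec_mulVec, ← Matrix.sub_mulVec, mul_one]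
    show ((u : M2) - 1) *ᵥ v = 0
    rw [Matrix.mulVec_mulVec, hN, Matrix.zero_mulVec]
  obtain ⟨τ, hτG, hτ⟩ := hirr v hj
  set w := (τ : M2) *ᵥ v
  have hPd : Matrix.det !![v 0, w 0; v 1, w 1] ≠ 0 := by
    intro h
    obtain ⟨x, hx, e⟩ := Matrix.exists_mulVec_eq_zero_iff.2 h
    have e' : x 0 • v + x 1 • w = 0 := by
      funext i
      have := congrFun e i
      fin_cases i <;> simp [Matrix.mulVec, dotProduct, Fin.sum_univ_two] at this ⊢ <;>
        linear_combination this
    rcases eq_or_ne (x 1) 0 with h1 | h1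
    · rw [h1, zero_smul, add_zero] at e'
      rcases smul_eq_zero.1 e' with h0 | h0
      · exact hx (funext fun i => by fin_cases i <;> simp [h0, h1])
      · exact hj h0
    · refine hτ (-(x 0) / x 1) ?_
      show w = _
      rw [div_eq_inv_mul, mul_smul, neg_smul, eq_neg_of_add_eq_zero_left e', neg_neg, smul_smul,
        inv_mul_cancel₀ h1, one_smul]
  let P : GL2 := Matrix.GeneralLinearGroup.mkOfDetNeZero _ hPd
  have hP0 : (P : M2) *ᵥ ![1, 0] = v := by
    funext i; fin_cases i <;> simp [P, Matrix.GeneralLinearGroup.mkOfDetNeZero, Matrix.mulVec,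
      dotProduct, Fin.sum_univ_two]
  have hP1 : (P : M2) *ᵥ ![0, 1] = w := by
    funext i; fin_cases i <;> simp [P, Matrix.GeneralLinearGroup.mkOfDetNeZero, Matrix.mulVec,
      dotProduct, Fin.sum_univ_two]
  have hconj : ∀ (g : GL2) (x y : Fin 2 → ZMod p), (P : M2) *ᵥ x = y → (g : M2) *ᵥ y = y →
      ((P⁻¹ * g * P : GL2) : M2) *ᵥ x = x := by
    intro g x y hxy hgy
    rw [Units.val_mul, Units.val_mul, ← Matrix.mulVec_mulVec, hxy, ← Matrix.mulVec_mulVec, hgy,
      ← hxy, Matrix.mulVec_mulVec, ← Units.val_mul, inv_mul_cancel, Units.val_one,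
      Matrix.one_mulVec]
  have hdet : ∀ g : GL2, dt g = 1 → ((P⁻¹ * g * P : GL2) : M2).det = 1 := by
    intro g hg
    have := dt_conj P⁻¹ g
    rw [inv_inv] at this
    exact this.trans hg
  have hτu : ((τ * u * τ⁻¹ : GL2) : M2) *ᵥ w = w := by
    show _ *ᵥ ((τ : M2) *ᵥ v) = _
    rw [Units.val_mul, Units.val_mul, Matrix.mulVec_mulVec, mul_assoc, ← Units.val_mul τ⁻¹ τ,
      inv_mul_cancel, Units.val_one, mul_one, ← Matrix.mulVec_mulVec, huv]
  have hU := eq_upper (hconj u _ _ hP0 huv) (hdet u hud)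
  have hL := eq_lower (hconj (τ * u * τ⁻¹) _ _ hP1 hτu) (hdet _ ((dt_conj τ u).trans hud))
  have hne : ∀ g : GL2, g ≠ 1 → ((P⁻¹ * g * P : GL2) : M2) ≠ 1 := by
    intro g hg h
    refine hg ?_
    have h' : P⁻¹ * g * P = 1 := Units.ext h
    calc g = P * (P⁻¹ * g * P) * P⁻¹ := by group
      _ = 1 := by rw [h', mul_one, mul_inv_cancel]
  let H : Submonoid M2 :=
    { carrier := {M | ∃ g ∈ G, ((P⁻¹ * g * P : GL2) : M2) = M}
      one_mem' := ⟨1, G.one_mem, by simp⟩
      mul_mem' := by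
        rintro _ _ ⟨g, hg, rfl⟩ ⟨g', hg', rfl⟩
        refine ⟨g * g', G.mul_mem hg hg', ?_⟩
        rw [← Units.val_mul]
        congr 1
        group }
  have hUm := (Lowering.P8.root_mem H (c := ((P⁻¹ * u * P : GL2) : M2) 0 1) (fun h0 =>
    hne u hu1 (by rw [hU, h0]; exact Matrix.one_fin_two.symm))).1 ⟨u, huG, hU⟩
  have hLm := (Lowering.P8.root_mem H (c := ((P⁻¹ * (τ * u * τ⁻¹) * P : GL2) : M2) 1 0) (fun h0 =>
    hne (τ * u * τ⁻¹) (fun h1 => hu1 (by
      calc u = τ⁻¹ * (τ * u * τ⁻¹) * τ := by group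
        _ = 1 := by rw [h1, mul_one, inv_mul_cancel]))
      (by rw [hL, h0]; exact Matrix.one_fin_two.symm))).2
    ⟨τ * u * τ⁻¹, G.mul_mem (G.mul_mem hτG huG) (G.inv_mem hτG), hL⟩
  intro g hg
  obtain ⟨g', hg', he⟩ := Lowering.P8.mem_of_det_eq_one H hUm hLm
    ((P⁻¹ * g * P : GL2) : M2) (hdet g hg)
  have : g' = g := mul_left_cancel (mul_right_cancel (Units.ext he))
  rwa [this] at hg'

/-- Squares in a group of index two. -/
theorem sq_mem_of_relIndex_le_two {G : Type*} [Group G] {H K : Subgroup G} (hHK : H ≤ K)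
    (hfin : Finite K) (h : Nat.card K ≤ 2 * Nat.card H) {x : G} (hx : x ∈ K) : x * x ∈ H := by
  haveI := hfin
  haveI : Finite H := Finite.of_injective (Subgroup.inclusion hHK) (Subgroup.inclusion_injective hHK)
  have h1 := (H.subgroupOf K).card_mul_index
  rw [Nat.card_congr (Subgroup.subgroupOfEquivOfLe hHK).toEquiv] at h1
  have hpos : 0 < Nat.card H := Nat.card_pos
  have hle : (H.subgroupOf K).index ≤ 2 := by
    by_contra hc
    push Not at hc
    have : Nat.card H * 3 ≤ Nat.card H * (H.subgroupOf K).index := Nat.mul_le_mul_left _ hc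
    omega
  have hne : (H.subgroupOf K).index ≠ 0 := Subgroup.index_ne_zero_of_finite
  rcases (by omega : (H.subgroupOf K).index = 1 ∨ (H.subgroupOf K).index = 2) with h2 | h2
  · exact H.mul_mem
      (Subgroup.subgroupOf_eq_top.1 (Subgroup.index_eq_one.1 h2) hx)
      (Subgroup.subgroupOf_eq_top.1 (Subgroup.index_eq_one.1 h2) hx)
  · exact Subgroup.mul_self_mem_of_index_two h2 (⟨x, hx⟩ : K)

theorem eq_scalar_of_sq_eq_one {t : GL2} (hp2 : p ≠ 2) (hd : dt t = 1) (h2 : t * t = 1) :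
    ∃ a : ZMod p, (t : M2) = a • 1 := by
  have hc := cayley (t : M2)
  rw [← Units.val_mul, h2, Units.val_one, show (t : M2).det = 1 from hd, one_smul] at hc
  rcases eq_or_ne (Matrix.trace (t : M2)) 0 with ha | ha
  · rw [ha, zero_smul] at hc
    have := congrFun (congrFun hc 0) 0
    simp at this
    have h2' : ((2 : ℕ) : ZMod p) = 0 := by push_cast; linear_combination this
    rw [ZMod.natCast_eq_zero_iff] at h2'
    exact absurd ((Nat.prime_dvd_prime_iff_eq hp.out Nat.prime_two).1 h2') hp2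
  · refine ⟨(Matrix.trace (t : M2))⁻¹ * 2, ?_⟩
    rw [mul_smul, two_smul, hc, smul_smul, inv_mul_cancel₀ ha, one_smul]

/-- Fourth powers by the characteristic polynomial. -/
theorem pow_four_eq (M : M2) :
    M ^ 4 = (M.trace ^ 3 - 2 * M.trace * M.det) • M + (M.det ^ 2 - M.trace ^ 2 * M.det) • 1 := by
  have h : M * M = M.trace • M - M.det • 1 := eq_sub_of_add_eq (cayley M)
  have h3 : M * M * M = (M.trace ^ 2 - M.det) • M - (M.trace * M.det) • 1 := by
    rw [h, sub_mul, smul_mul_assoc, h, smul_mul_assoc, one_mul]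
    module
  rw [show M ^ 4 = M * M * M * M by simp only [pow_succ, pow_zero, one_mul], h3, sub_mul,
    smul_mul_assoc, h, smul_mul_assoc, one_mul]
  module

theorem card_sl : Nat.card (sl : Subgroup GL2) * (p - 1) = (p * p - 1) * (p * p - p) := by
  classical
  have hker : (sl : Subgroup GL2) = (Matrix.GeneralLinearGroup.det (n := Fin 2) (R := ZMod p)).ker := by
    ext g
    rw [mem_sl, MonoidHom.mem_ker, Units.ext_iff]
    rfl
  have hsurj : Function.Surjective (Matrix.GeneralLinearGroup.det (n := Fin 2) (R := ZMod p)) := by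
    intro c
    refine ⟨Matrix.GeneralLinearGroup.mkOfDetNeZero !![(c : ZMod p), 0; 0, 1]
      (by simp [Matrix.det_fin_two_of]), Units.ext ?_⟩
    simp [Matrix.GeneralLinearGroup.mkOfDetNeZero, Matrix.det_fin_two_of]
  have h := (Matrix.GeneralLinearGroup.det (n := Fin 2) (R := ZMod p)).ker.card_mul_index
  rw [Subgroup.index_ker, MonoidHom.range_eq_top.2 hsurj, Subgroup.card_top, ← hker,
    Nat.card_eq_fintype_card (α := (ZMod p)ˣ), ZMod.card_units p, Matrix.card_GL_field] at h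
  simp [Fin.prod_univ_two, ZMod.card] at h
  rw [Nat.card_eq_fintype_card, h]
  ring_nf

theorem mem_zpowers_pow_cases {c : GL2} (hc3 : c ^ 3 = 1) {y : GL2} (hy : y ∈ Subgroup.zpowers c) :
    y = 1 ∨ y = c ∨ y = c ^ 2 := by
  have hfin : IsOfFinOrder c := isOfFinOrder_iff_pow_eq_one.2 ⟨3, by norm_num, hc3⟩
  obtain ⟨m, rfl⟩ := (mem_powers_iff_mem_zpowers.2 hy)
  have hm : c ^ m = c ^ (m % 3) := by
    conv_lhs => rw [← Nat.div_add_mod m 3, pow_add, pow_mul, hc3, one_pow, one_mul]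
  show c ^ m = 1 ∨ c ^ m = c ∨ c ^ m = c ^ 2
  have : m % 3 = 0 ∨ m % 3 = 1 ∨ m % 3 = 2 := by omega
  rcases this with h | h | h <;> rw [hm, h]
  · exact Or.inl (pow_zero c)
  · exact Or.inr (Or.inl (pow_one c))
  · exact Or.inr (Or.inr rfl)

/-- The hypotheses on the image of a tame representation with cyclotomic determinant. -/
structure TameImage (G : Subgroup GL2) (s φ : GL2) : Prop where
  noLine : NoLine G
  card : ¬ p ∣ Nat.card G
  s_mem : s ∈ G
  φ_mem : φ ∈ G
  conj : φ * s * φ⁻¹ = s ^ p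
  det_gen : ∀ c : ZMod p, c ≠ 0 → ∃ k : ℕ, dt s ^ k = c
  gen : ∀ M : Subgroup GL2, M ≤ G → (∀ g ∈ G, ∀ m ∈ M, g * m * g⁻¹ ∈ M) → s ^ (p - 1) ∈ M →
    G ⊓ sl ≤ M

namespace TameImage

theorem no_root_five_aux : ∀ a : ZMod 5, a * a + a + 1 = 0 → False := by decide

theorem commutant_five_aux : ∀ α β : ZMod 5, α * 2 + β * 4 = 4 →
    α * α + α * β * 4 + β * β = 1 → (α = 0 ∧ β = 1) ∨ (α = 4 ∧ β = 4) := by decide

/-- The eigenvalues of an element whose fourth power is one. -/
theorem root_five_aux : ∀ a d : ZMod 5, (∀ x : ZMod 5, x ^ 2 - a * x + d ≠ 0) →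
    a ^ 3 - 2 * a * d = 0 → d ^ 2 - a ^ 2 * d = 1 → False := by decide

local instance factPrimeThree : Fact (Nat.Prime 3) := ⟨Nat.prime_three⟩
local instance factPrimeFive : Fact (Nat.Prime 5) := ⟨Nat.prime_five⟩

variable {G : Subgroup (GL (Fin 2) (ZMod p))} {s φ : GL (Fin 2) (ZMod p)}

theorem decomp (h : TameImage G s φ) {g : GL2} (hg : g ∈ G) :
    ∃ k : ℕ, ∃ d : GL2, d ∈ G ⊓ sl ∧ g = s ^ k * d := by
  obtain ⟨k, hk⟩ := h.det_gen (dt g) (dt_ne_zero g)
  refine ⟨k, (s ^ k)⁻¹ * g, ⟨G.mul_mem (G.inv_mem (G.pow_mem h.s_mem k)) hg, ?_⟩, by group⟩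
  show dt _ = 1
  have h1 := dt_mul (s ^ k) ((s ^ k)⁻¹ * g)
  rw [mul_inv_cancel_left, dt_pow, hk] at h1
  exact mul_left_cancel₀ (dt_ne_zero g) (h1.symm.trans (mul_one _).symm)

theorem t_mem (h : TameImage G s φ) : s ^ (p - 1) ∈ G ⊓ (sl : Subgroup GL2) :=
  ⟨G.pow_mem h.s_mem _, by show dt (s ^ (p - 1)) = 1; rw [dt_pow, ZMod.pow_card_sub_one_eq_one (dt_ne_zero s)]⟩

/-- The powers of `s ^ (p - 1)` cannot be normal. -/
theorem false_of_normal (h : TameImage G s φ) (hp35 : p = 3 ∨ p = 5)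
    (hN : ∀ d ∈ G ⊓ sl, d * s ^ (p - 1) * d⁻¹ ∈ Subgroup.zpowers (s ^ (p - 1))) : False := by
  set t := s ^ (p - 1) with ht
  have hts : Commute s t := (Commute.refl s).pow_right _
  have hD : G ⊓ sl ≤ Subgroup.zpowers t := by
    refine h.gen _ ((Subgroup.zpowers_le).2 h.t_mem.1) (fun g hg m hm => ?_)
      (Subgroup.mem_zpowers t)
    obtain ⟨i, rfl⟩ := Subgroup.mem_zpowers_iff.1 hm
    obtain ⟨k, d, hd, rfl⟩ := h.decomp hg
    obtain ⟨j, hj⟩ := Subgroup.mem_zpowers_iff.1 (hN d hd)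
    rw [← conj_zpow, _root_.mul_inv_rev,
      show s ^ k * d * t * (d⁻¹ * (s ^ k)⁻¹) = s ^ k * (d * t * d⁻¹) * (s ^ k)⁻¹ by group, ← hj,
      ((hts.zpow_right j).pow_left k).eq, mul_inv_cancel_right, ← _root_.zpow_mul]
    exact Subgroup.mem_zpowers_iff.2 ⟨j * i, rfl⟩
  have hpow : ∀ g ∈ G, g ∈ Subgroup.zpowers s := by
    intro g hg
    obtain ⟨k, d, hd, rfl⟩ := h.decomp hg
    obtain ⟨i, rfl⟩ := Subgroup.mem_zpowers_iff.1 (hD hd)
    exact Subgroup.mul_mem _ (Subgroup.pow_mem _ (Subgroup.mem_zpowers s) k)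
      (Subgroup.zpow_mem _ (Subgroup.pow_mem _ (Subgroup.mem_zpowers s) _) i)
  have ht1 : t = 1 := by
    obtain ⟨i, hi⟩ := Subgroup.mem_zpowers_iff.1 (hpow φ h.φ_mem)
    have h1 : φ * s * φ⁻¹ = s := by
      rw [← hi, ((Commute.refl s).zpow_left i).eq, mul_inv_cancel_right]
    rw [h.conj] at h1
    refine mul_eq_right (b := s).1 ?_
    rw [ht, ← pow_succ, Nat.sub_add_cancel hp.out.one_le, h1]
  obtain ⟨a, x, hx, he⟩ : ∃ (a : ZMod p) (x : Fin 2 → ZMod p), x ≠ 0 ∧ (s : M2) *ᵥ x = a • x := by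
    suffices ∃ a : ZMod p, a ^ 2 - Matrix.trace (s : M2) * a + Matrix.det (s : M2) = 0 by
      obtain ⟨a, ha⟩ := this
      exact ⟨a, TWPrimes.Image.exists_eigenvector ha⟩
    by_contra hne
    push Not at hne
    have hs : (s : M2) ^ (p - 1) = 1 := by
      rw [← Units.val_pow_eq_pow_val, ← ht, ht1, Units.val_one]
    have h01 : (s : M2) 1 0 ≠ 0 := by
      intro h0
      refine hne ((s : M2) 0 0) ?_
      rw [Matrix.trace_fin_two, Matrix.det_fin_two, h0]
      ring
    rcases hp35 with rfl | rfl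
    · rw [show (3 : ℕ) - 1 = 2 from rfl, pow_two, eq_sub_of_add_eq (cayley (s : Matrix (Fin 2) (Fin 2) (ZMod 3)))] at hs
      have e0 := congrFun (congrFun hs 1) 0
      have e1 := congrFun (congrFun hs 0) 0
      simp [h01] at e0 e1
      rw [e0] at e1 hne
      have hd : (s : Matrix (Fin 2) (Fin 2) (ZMod 3)).det = -1 := by linear_combination -e1
      rw [hd] at hne
      exact hne 1 (by ring)
    · rw [show (5 : ℕ) - 1 = 4 from rfl, pow_four_eq] at hs
      have e0 := congrFun (congrFun hs 1) 0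
      have e1 := congrFun (congrFun hs 0) 0
      simp [h01] at e0
      rw [e0] at e1
      simp at e1
      exact root_five_aux _ _ hne e0 e1
  obtain ⟨g, hg, hgx⟩ := h.noLine x hx
  obtain ⟨i, rfl⟩ := Subgroup.mem_zpowers_iff.1 (hpow g hg)
  haveI : Finite GL2 := inferInstance
  obtain ⟨n, hn⟩ := (mem_powers_iff_mem_zpowers (x := s)).2 (Subgroup.mem_zpowers_iff.2 ⟨i, rfl⟩)
  refine hgx (a ^ n) ?_
  rw [← hn, Units.val_pow_eq_pow_val]
  clear hn hgx
  induction n with
  | zero => simp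
  | succ n ih => rw [pow_succ, ← Matrix.mulVec_mulVec, he, Matrix.mulVec_smul, ih, smul_smul,
      pow_succ']

theorem false_three {G : Subgroup (GL (Fin 2) (ZMod 3))} {s φ : GL (Fin 2) (ZMod 3)}
    (h : TameImage G s φ) : False := by
  classical
  refine h.false_of_normal (Or.inl rfl) fun d hd => ?_
  set t := s ^ (3 - 1)
  have hcard : Nat.card ↥(G ⊓ sl) ∣ 8 := by
    have h1 : Nat.card ↥(G ⊓ sl) ∣ 24 := by
      have := card_sl (p := 3)
      simp only [Nat.reduceMul, Nat.reduceSub] at this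
      exact (Subgroup.card_dvd_of_le inf_le_right).trans (dvd_of_eq (by omega))
    refine (Nat.Coprime.dvd_of_dvd_mul_left ?_ (show Nat.card ↥(G ⊓ sl) ∣ 3 * 8 from h1))
    rw [Nat.coprime_comm, Nat.Prime.coprime_iff_not_dvd Nat.prime_three]
    exact fun h3 => h.card (h3.trans (Subgroup.card_dvd_of_le inf_le_left))
  rcases eq_or_ne (t * t) 1 with h2 | h2
  · obtain ⟨a, ha⟩ : ∃ a : ZMod 3, (t : Matrix (Fin 2) (Fin 2) (ZMod 3)) = a • 1 :=
      eq_scalar_of_sq_eq_one (by norm_num) h.t_mem.2 h2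
    have : d * t = t * d := Units.ext (by simp [ha])
    rw [this, mul_inv_cancel_right]
    exact Subgroup.mem_zpowers t
  · have hT : Subgroup.zpowers t ≤ G ⊓ sl := Subgroup.zpowers_le.2 h.t_mem
    have hord : 4 ≤ orderOf t := by
      have hdvd : orderOf t ∣ 8 := by
        rw [← Nat.card_zpowers]
        exact (Subgroup.card_dvd_of_le hT).trans hcard
      have h12 : ¬ orderOf t ∣ 2 := fun hd2 => h2 (by
        rw [← pow_two]; exact orderOf_dvd_iff_pow_eq_one.1 hd2)
      have := Nat.le_of_dvd (by norm_num) hdvd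
      by_contra hc
      push Not at hc
      interval_cases hh : orderOf t
      all_goals first | exact h12 (by decide) | exact absurd hdvd (by decide)
    have hle : Nat.card ↥(G ⊓ sl) ≤ 2 * Nat.card (Subgroup.zpowers t) := by
      rw [Nat.card_zpowers]
      have := Nat.le_of_dvd (by norm_num) hcard
      omega
    have hn : ((Subgroup.zpowers t).subgroupOf (G ⊓ sl)).index ≤ 2 := by
      have h1 := ((Subgroup.zpowers t).subgroupOf (G ⊓ sl)).card_mul_index
      rw [Nat.card_congr (Subgroup.subgroupOfEquivOfLe hT).toEquiv] at h1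
      by_contra hc
      push Not at hc
      have h3 : Nat.card (Subgroup.zpowers t) * 3 ≤
          Nat.card (Subgroup.zpowers t) * ((Subgroup.zpowers t).subgroupOf (G ⊓ sl)).index :=
        Nat.mul_le_mul_left _ hc
      have : 0 < Nat.card (Subgroup.zpowers t) := Nat.card_pos
      omega
    haveI : ((Subgroup.zpowers t).subgroupOf (G ⊓ sl)).Normal := by
      have : ((Subgroup.zpowers t).subgroupOf (G ⊓ sl)).index ≠ 0 := Subgroup.index_ne_zero_of_finite
      rcases (by omega : ((Subgroup.zpowers t).subgroupOf (G ⊓ sl)).index = 1 ∨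
        ((Subgroup.zpowers t).subgroupOf (G ⊓ sl)).index = 2) with hi | hi
      · rw [Subgroup.index_eq_one.1 hi]; infer_instance
      · exact Subgroup.normal_of_index_eq_two hi
    exact this.conj_mem ⟨t, h.t_mem⟩ (Subgroup.mem_zpowers t) ⟨d, hd⟩

set_option maxHeartbeats 1000000 in
theorem false_five {G : Subgroup (GL (Fin 2) (ZMod 5))} {s φ : GL (Fin 2) (ZMod 5)}
    (h : TameImage G s φ) : False := by
  classical
  refine h.false_of_normal (Or.inr rfl) ?_
  set t := s ^ (5 - 1) with htdef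
  have hcard : Nat.card ↥(G ⊓ sl) ∣ 24 := by
    have h1 : Nat.card ↥(G ⊓ sl) ∣ 120 := by
      have := card_sl (p := 5)
      simp only [Nat.reduceMul, Nat.reduceSub] at this
      exact (Subgroup.card_dvd_of_le inf_le_right).trans (dvd_of_eq (by omega))
    refine Nat.Coprime.dvd_of_dvd_mul_left ?_ (show Nat.card ↥(G ⊓ sl) ∣ 5 * 24 from h1)
    rw [Nat.coprime_comm, Nat.Prime.coprime_iff_not_dvd Nat.prime_five]
    exact fun h5 => h.card (h5.trans (Subgroup.card_dvd_of_le inf_le_left))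
  have hdvd : ∀ x ∈ G ⊓ sl, orderOf x ∣ 24 := fun x hx => by
    rw [← Nat.card_zpowers]
    exact (Subgroup.card_dvd_of_le (Subgroup.zpowers_le.2 hx)).trans hcard
  intro d hd
  rcases eq_or_ne (t * t) 1 with h2 | h2
  · obtain ⟨a, ha⟩ : ∃ a : ZMod 5, (t : Matrix (Fin 2) (Fin 2) (ZMod 5)) = a • 1 :=
      eq_scalar_of_sq_eq_one (by norm_num) h.t_mem.2 h2
    have : d * t = t * d := Units.ext (by simp [ha])
    rw [this, mul_inv_cancel_right]
    exact Subgroup.mem_zpowers t
  -- the trace of `t` is `±1`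
  have hdt : (t : Matrix (Fin 2) (Fin 2) (ZMod 5)).det = 1 := h.t_mem.2
  have hcy := eq_sub_of_add_eq (cayley (t : Matrix (Fin 2) (Fin 2) (ZMod 5)))
  rw [hdt, one_smul] at hcy
  have htr : (t : Matrix (Fin 2) (Fin 2) (ZMod 5)).trace = 1 ∨
      (t : Matrix (Fin 2) (Fin 2) (ZMod 5)).trace = 4 := by
    have hcases : ∀ a : ZMod 5, (a = 1 ∨ a = 4) ∨ a = 0 ∨ a = 2 ∨ a = 3 := by decide
    rcases hcases (t : Matrix (Fin 2) (Fin 2) (ZMod 5)).trace with ha | ha | ha | ha
    · exact ha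
    · exfalso
      obtain ⟨k, hk⟩ := h.det_gen 2 (by decide)
      have hds : dt s = 2 ∨ dt s = 3 := by
        have hc : ∀ a : ZMod 5, a = 2 ∨ a = 3 ∨ a * a = a ∨ a * a = 1 := by decide
        rcases hc (dt s) with hh | hh | hh | hh
        · exact Or.inl hh
        · exact Or.inr hh
        all_goals
          exfalso
          have hh' : dt s * dt s = 1 := by
            first
              | exact hh
              | (rw [mul_left_eq_self₀.1 hh |>.resolve_right (dt_ne_zero s), one_mul])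
          rcases Nat.even_or_odd' k with ⟨m, rfl | rfl⟩
          · rw [pow_mul, pow_two, hh', one_pow] at hk
            exact absurd hk (by decide)
          · rw [pow_succ, pow_mul, pow_two, hh', one_pow, one_mul] at hk
            rw [hk] at hh'
            exact absurd hh' (by decide)
      rw [htdef, show (5 : ℕ) - 1 = 4 from rfl, Units.val_pow_eq_pow_val, pow_four_eq,
        Matrix.trace_add, Matrix.trace_smul, Matrix.trace_smul, Matrix.trace_one] at ha
      simp at ha
      change (s : Matrix (Fin 2) (Fin 2) (ZMod 5)).det = 2 ∨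
        (s : Matrix (Fin 2) (Fin 2) (ZMod 5)).det = 3 at hds
      revert ha hds
      generalize (s : Matrix (Fin 2) (Fin 2) (ZMod 5)).trace = a
      generalize (s : Matrix (Fin 2) (Fin 2) (ZMod 5)).det = e
      revert a e
      decide
    all_goals
      exfalso
      rw [ha] at hcy
      have h5 : (t ^ 10 : GL (Fin 2) (ZMod 5)) = 1 := by
        refine Units.ext ?_
        haveI : CharP (Matrix (Fin 2) (Fin 2) (ZMod 5)) 5 := inferInstance
        set c : ZMod 5 := (t : Matrix (Fin 2) (Fin 2) (ZMod 5)).trace * 3 with hc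
        rw [ha] at hc
        have hsq : ((t : Matrix (Fin 2) (Fin 2) (ZMod 5)) - c • 1) *
            ((t : Matrix (Fin 2) (Fin 2) (ZMod 5)) - c • 1) = 0 := by
          rw [hc]
          simp only [sub_mul, mul_sub, smul_mul_assoc, mul_smul_comm, one_mul, mul_one, hcy]
          match_scalars <;> decide
        have hp5 : ((t : Matrix (Fin 2) (Fin 2) (ZMod 5)) - c • 1) ^ 5 = 0 := by
          exact pow_eq_zero_of_le (by norm_num : 2 ≤ 5) (by rw [pow_two, hsq])
        rw [sub_pow_char_of_commute 5 ((Commute.one_right _).smul_right c), smul_pow, one_pow,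
          ZMod.pow_card, sub_eq_zero] at hp5
        rw [Units.val_pow_eq_pow_val, show (10 : ℕ) = 5 * 2 from rfl, pow_mul, hp5, smul_pow,
          one_pow, Units.val_one, hc]
        match_scalars
        decide
      refine h2 ?_
      have h1 := Nat.dvd_gcd (orderOf_dvd_iff_pow_eq_one.2 h5) (hdvd t h.t_mem)
      rw [← pow_two]
      exact orderOf_dvd_iff_pow_eq_one.1 h1
  have ht3 : ∃ ε : ZMod 5, ((t ^ 3 : GL (Fin 2) (ZMod 5)) : Matrix (Fin 2) (Fin 2) (ZMod 5)) =
      ε • 1 ∧ ε * ε = 1 := by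
    refine ⟨-(t : Matrix (Fin 2) (Fin 2) (ZMod 5)).trace, ?_, ?_⟩
    · rw [Units.val_pow_eq_pow_val, pow_succ, pow_two, hcy, sub_mul, smul_mul_assoc, hcy, one_mul]
      rcases htr with ha | ha <;> rw [ha] <;> match_scalars <;> decide
    · rcases htr with ha | ha <;> rw [ha] <;> decide
  obtain ⟨ε, hε, hεε⟩ := ht3
  have hcen : ∀ g : GL (Fin 2) (ZMod 5), g * t ^ 3 = t ^ 3 * g := fun g =>
    Units.ext (by simp [hε])
  set c := t ^ 2 with hcdef
  have hc3 : c ^ 3 = 1 := by
    refine Units.ext ?_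
    rw [hcdef, ← pow_mul, show 2 * 3 = 3 * 2 from rfl, pow_mul, Units.val_pow_eq_pow_val, hε,
      smul_pow, one_pow, pow_two, hεε, one_smul, Units.val_one]
  have hc1 : c ≠ 1 := fun hc => h2 (by rw [← pow_two]; exact hc)
  have hordc : orderOf c = 3 := orderOf_eq_prime hc3 hc1
  -- conjugates of `c` are powers of `c`
  suffices hP : d * c * d⁻¹ ∈ Subgroup.zpowers c by
    have e : d * t * d⁻¹ = t ^ 3 * (d * c * d⁻¹)⁻¹ := by
      rw [show t ^ 3 * (d * c * d⁻¹)⁻¹ = (t ^ 3 * d) * c⁻¹ * d⁻¹ by group, ← hcen,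
        show d * t ^ 3 * c⁻¹ * d⁻¹ = d * (t ^ 3 * c⁻¹) * d⁻¹ by group, hcdef]
      group
    rw [e]
    exact Subgroup.mul_mem _ (Subgroup.pow_mem _ (Subgroup.mem_zpowers t) 3)
      (Subgroup.inv_mem _ (Subgroup.zpowers_le.2
        (Subgroup.pow_mem _ (Subgroup.mem_zpowers t) 2) hP))
  -- an element of determinant one inverting `c`
  obtain ⟨k, x, hx, hφx⟩ := h.decomp h.φ_mem
  have hsc : Commute s c := ((Commute.refl s).pow_right _).pow_right _
  have hxc : x * c * x⁻¹ = c ^ 2 := by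
    have h1 : φ * c * φ⁻¹ = c ^ 2 := by
      calc φ * c * φ⁻¹ = (φ * s * φ⁻¹) ^ ((5 - 1) * 2) := by rw [conj_pow, hcdef, htdef, ← pow_mul]
        _ = c ^ 5 := by rw [h.conj, hcdef, htdef, ← pow_mul, ← pow_mul, ← pow_mul]
        _ = c ^ 3 * c ^ 2 := pow_add c 3 2
        _ = c ^ 2 := by rw [hc3, one_mul]
    have h3 : (s ^ k)⁻¹ * c ^ 2 * s ^ k = c ^ 2 := by
      rw [mul_assoc, ((hsc.pow_left k).pow_right 2).symm.eq, inv_mul_cancel_left]
    rw [← h3, ← h1, hφx]
    group
  have hxm : ∀ m : ℕ, x ^ m * c * (x ^ m)⁻¹ = c ^ (2 ^ m) := by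
    intro m
    induction m with
    | zero => simp
    | succ m ih =>
      rw [pow_succ' x m, _root_.mul_inv_rev,
        show x * x ^ m * c * ((x ^ m)⁻¹ * x⁻¹) = x * (x ^ m * c * (x ^ m)⁻¹) * x⁻¹ by group, ih,
        ← conj_pow, hxc, ← pow_mul, pow_succ']
  have hodd : ∀ m : ℕ, Odd m → c ^ (2 ^ m) = c ^ 2 := by
    rintro _ ⟨r, rfl⟩
    have h4 : ∀ r : ℕ, c ^ (4 ^ r) = c := by
      intro r
      induction r with
      | zero => rw [pow_zero, pow_one]
      | succ r ih => rw [pow_succ, pow_mul, ih, show (4 : ℕ) = 3 + 1 from rfl, pow_succ, hc3, one_mul]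
    rw [pow_succ, pow_mul, pow_mul, show (2 : ℕ) ^ 2 = 4 from rfl, h4]
  have hne2 : c ^ 2 ≠ c := fun he => hc1 (by rw [pow_two] at he; exact mul_eq_right.1 he)
  have h4x : 4 ∣ orderOf x := by
    rcases Nat.even_or_odd (orderOf x) with ⟨m, hm⟩ | ho
    swap
    · have := hxm (orderOf x)
      rw [pow_orderOf_eq_one, one_mul, inv_one, mul_one, hodd _ ho] at this
      exact absurd this.symm hne2
    rcases Nat.even_or_odd m with ⟨r, hr⟩ | ho
    · exact ⟨r, by omega⟩
    · exfalso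
      have hm2 : x ^ m * x ^ m = 1 := by rw [← pow_add, ← hm, pow_orderOf_eq_one]
      obtain ⟨a, ha⟩ := eq_scalar_of_sq_eq_one (by norm_num)
        (mem_sl.1 ((sl).pow_mem hx.2 m)) hm2
      have hcm : x ^ m * c = c * x ^ m := Units.ext (by simp [ha])
      have := hxm m
      rw [hcm, mul_inv_cancel_right, hodd _ ho] at this
      exact hne2 this.symm
  let Hn : Subgroup (GL (Fin 2) (ZMod 5)) :=
    (G ⊓ sl) ⊓ Subgroup.normalizer ((Subgroup.zpowers c : Subgroup _) : Set (GL (Fin 2) (ZMod 5)))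
  have hcH : c ∈ Hn := ⟨(G ⊓ sl).pow_mem h.t_mem 2,
    Subgroup.le_normalizer (Subgroup.mem_zpowers c)⟩
  have hnorm : ∀ y : GL (Fin 2) (ZMod 5), y * c * y⁻¹ ∈ Subgroup.zpowers c →
      y ∈ Subgroup.normalizer ((Subgroup.zpowers c : Subgroup _) : Set (GL (Fin 2) (ZMod 5))) := by
    intro y hy
    rw [Subgroup.mem_normalizer_iff]
    have key : ∀ n, n ∈ Subgroup.zpowers c → y * n * y⁻¹ ∈ Subgroup.zpowers c := by
      intro n hn
      obtain ⟨i, rfl⟩ := Subgroup.mem_zpowers_iff.1 hn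
      rw [← conj_zpow]
      exact Subgroup.zpow_mem _ hy i
    intro n
    refine ⟨key n, fun hn => ?_⟩
    -- injectivity of conjugation on a finite set
    have hsurj : ∃ m ∈ Subgroup.zpowers c, y * m * y⁻¹ = y * n * y⁻¹ := by
      let f : Subgroup.zpowers c → Subgroup.zpowers c := fun m => ⟨_, key m m.2⟩
      have hf : Function.Injective f := fun a b hab => by
        have := congrArg Subtype.val hab
        exact Subtype.ext (mul_left_cancel (mul_right_cancel this))
      obtain ⟨m, hm⟩ := (Finite.injective_iff_surjective.1 hf) ⟨_, hn⟩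
      exact ⟨m, m.2, congrArg Subtype.val hm⟩
    obtain ⟨m, hm, he⟩ := hsurj
    rwa [← mul_left_cancel (mul_right_cancel he)]
  have hxH : x ∈ Hn := ⟨hx, hnorm x (by rw [hxc]; exact Subgroup.pow_mem _ (Subgroup.mem_zpowers c) 2)⟩
  have h12 : 12 ∣ Nat.card Hn := by
    have h3 : 3 ∣ Nat.card Hn := by
      rw [← hordc, ← Nat.card_zpowers]; exact Subgroup.card_dvd_of_le (Subgroup.zpowers_le.2 hcH)
    have h4 : 4 ∣ Nat.card Hn := h4x.trans (by
      rw [← Nat.card_zpowers]; exact Subgroup.card_dvd_of_le (Subgroup.zpowers_le.2 hxH))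
    exact Nat.Coprime.mul_dvd_of_dvd_of_dvd (by norm_num : Nat.Coprime 3 4) h3 h4
  have hle : Nat.card ↥(G ⊓ sl) ≤ 2 * Nat.card Hn := by
    have h1 : 12 ≤ Nat.card Hn := Nat.le_of_dvd Nat.card_pos h12
    have := Nat.le_of_dvd (by norm_num) hcard
    omega
  set c' := d * c * d⁻¹ with hc'
  have hc'3 : c' ^ 3 = 1 := by rw [hc', conj_pow, hc3, mul_one, mul_inv_cancel]
  have hc'D : c' ∈ G ⊓ sl := (G ⊓ sl).mul_mem ((G ⊓ sl).mul_mem hd hcH.1) ((G ⊓ sl).inv_mem hd)
  have hsq := sq_mem_of_relIndex_le_two (inf_le_left : Hn ≤ G ⊓ sl) inferInstance hle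
    ((G ⊓ sl).mul_mem hc'D hc'D)
  rw [show c' * c' * (c' * c') = c' ^ 3 * c' by simp only [pow_succ, pow_zero, one_mul, mul_assoc], hc'3, one_mul] at hsq
  have hcm : c' * c * c'⁻¹ = c := by
    have hn := (Subgroup.mem_normalizer_iff.1 hsq.2 c).1 (Subgroup.mem_zpowers c)
    rcases mem_zpowers_pow_cases hc3 hn with hh | hh | hh
    · exact absurd (conj_eq_one_iff.1 hh) hc1
    · exact hh
    · exfalso
      have e3 : c' ^ 3 * c * (c' ^ 3)⁻¹ = ((c ^ 2) ^ 2) ^ 2 := by
        rw [pow_succ', pow_two, _root_.mul_inv_rev, _root_.mul_inv_rev]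
        calc c' * (c' * c') * c * (c'⁻¹ * c'⁻¹ * c'⁻¹) = c' * (c' * (c' * c * c'⁻¹) * c'⁻¹) * c'⁻¹ := by
              group
          _ = _ := by rw [hh, ← conj_pow, hh, ← conj_pow, ← conj_pow, hh]
      rw [hc'3, one_mul, inv_one, mul_one, ← pow_mul, ← pow_mul,
        show 2 * 2 * 2 = 3 + 3 + 2 from rfl, pow_add, pow_add, hc3, one_mul, one_mul] at e3
      exact hne2 e3.symm
  -- the commutant of `c`
  have hctr : (c : Matrix (Fin 2) (Fin 2) (ZMod 5)).trace = 4 := by
    rw [hcdef, Units.val_pow_eq_pow_val, pow_two, hcy, Matrix.trace_sub, Matrix.trace_smul,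
      Matrix.trace_one]
    rcases htr with ha | ha <;> rw [ha] <;> decide
  have hcdet : (c : Matrix (Fin 2) (Fin 2) (ZMod 5)).det = 1 := hcH.1.2
  have hJ : NoEigen (c : Matrix (Fin 2) (Fin 2) (ZMod 5)) := by
    intro a v hv
    by_contra hv0
    have hd0 : ((c : Matrix (Fin 2) (Fin 2) (ZMod 5)) - a • 1).det = 0 :=
      Matrix.exists_mulVec_eq_zero_iff.1 ⟨v, hv0, by
        rw [Matrix.sub_mulVec, Matrix.smul_mulVec, Matrix.one_mulVec, hv, sub_self]⟩
    simp [Matrix.det_fin_two, Matrix.trace_fin_two] at hd0 hctr hcdet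
    have h5 : a * 5 = 0 := by rw [show (5 : ZMod 5) = 0 by decide, mul_zero]
    exact no_root_five_aux a (by linear_combination hd0 - hcdet + a * hctr + h5)
  have hcomm : (c' : Matrix (Fin 2) (Fin 2) (ZMod 5)) * c = (c : Matrix (Fin 2) (Fin 2) (ZMod 5)) * c' := by
    rw [← Units.val_mul, ← Units.val_mul, mul_inv_eq_iff_eq_mul.1 hcm]
  obtain ⟨α, β, hab⟩ := hJ.exists_of_commute hcomm
  have htr' : (c' : Matrix (Fin 2) (Fin 2) (ZMod 5)).trace = 4 := by
    rw [hc', Units.val_mul, Units.val_mul, Matrix.trace_mul_cycle, ← Units.val_mul, inv_mul_cancel,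
      Units.val_one, one_mul, hctr]
  have hdet' : (c' : Matrix (Fin 2) (Fin 2) (ZMod 5)).det = 1 := hc'D.2
  have hrel : (α = 0 ∧ β = 1) ∨ (α = 4 ∧ β = 4) := by
    rw [hab] at htr' hdet'
    rw [Matrix.trace_add, Matrix.trace_smul, Matrix.trace_smul, hctr, Matrix.trace_one] at htr'
    simp [Matrix.det_fin_two, Matrix.trace_fin_two] at htr' hdet' hctr hcdet
    have hq : α * α + α * β * 4 + β * β = 1 := by
      linear_combination hdet' - β ^ 2 * hcdet - α * β * hctr
    exact commutant_five_aux α β (by linear_combination htr') hq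
  rcases hrel with ⟨rfl, rfl⟩ | ⟨rfl, rfl⟩
  · rw [show c' = c from Units.ext (by rw [hab]; simp)]
    exact Subgroup.mem_zpowers c
  · have : c' = c * c := Units.ext (by
      rw [hab, Units.val_mul, eq_sub_of_add_eq (cayley (c : Matrix (Fin 2) (Fin 2) (ZMod 5))),
        hctr, hcdet]
      match_scalars <;> decide)
    rw [this]
    exact Subgroup.mul_mem _ (Subgroup.mem_zpowers c) (Subgroup.mem_zpowers c)

end TameImage

/-- A group as in `TameImage` does not exist for `p = 3, 5`. -/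
theorem not_tameImage (hp35 : p = 3 ∨ p = 5) (G : Subgroup GL2) (s φ : GL2) :
    ¬ TameImage G s φ := by
  intro h
  rcases hp35 with rfl | rfl
  · exact h.false_three
  · exact h.false_five

end FLTAgent.ModLift
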