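import Fermat.Agent.ModLift.Image.Group
import Fermat.Agent.FlatLocal.Setup
import Fermat.Agent.FlatLocal.Residual

/-!
# Tame inertia at `p` in a finite image of order prime to `p`

The image of inertia is cyclic and a Frobenius element raises its generator to the power `p`.
-/

set_option autoImplicit false
set_option linter.style.haveILetI false

noncomputable section

open Matrix

namespace FLTAgent.ModLift

local notation "QQb" => AlgebraicClosure ℚ
local notation "GG" => (AlgebraicClosure ℚ ≃ₐ[ℚ] AlgebraicClosure ℚ)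

open FLTAgent.FlatLocal

variable {p : ℕ} [hp : Fact p.Prime]

/-- A generator of the image of inertia at `p`, and the relation with Frobenius. -/
theorem exists_tame_generator (r : GG →* GL (Fin 2) (ZMod p))
    (hlev : ∃ L : IntermediateField ℚ QQb, FiniteDimensional ℚ L ∧
      ∀ σ : GG, (∀ x ∈ L, σ x = x) → r σ = 1)
    (hcard : ¬ p ∣ Nat.card r.range) {P : ValuationSubring QQb} (hP : P.LiesOverPrime p) :
    ∃ σ₀ ∈ P.inertiaSubgroupIn ℚ, ∃ φ : GG, r φ * r σ₀ * (r φ)⁻¹ = r σ₀ ^ p ∧
      ∀ σ ∈ P.inertiaSubgroupIn ℚ, ∃ k : ℕ, r σ = r σ₀ ^ k := by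
  classical
  let f : Dec P →* GL (Fin 2) (ZMod p) := r.comp (Dec P).subtype
  let r' : Dec P →* Mat2 p := (Units.coeHom _).comp f
  obtain ⟨L, hL, hfix⟩ := hlev
  have hflev : ∀ a b : Dec P, (b : GG) ∈ L.fixingSubgroup → f (a * b) = f a := by
    intro a b hb
    rw [map_mul, show f b = 1 from hfix _ ((IntermediateField.mem_fixingSubgroup_iff _ _).1 hb),
      mul_one]
  have hr' : LevC P r' := ⟨L, hL, fun a b hb => congrArg Units.val (hflev a b hb)⟩
  have hwild : ∀ σ : Dec P, IsWild P σ → f σ = 1 := by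
    intro σ hσ
    have hN := wild_nilpotent hP hr' hσ
    haveI : CharP (Mat2 p) p := inferInstance
    have hpow : ((f σ : Mat2 p)) ^ p = 1 := by
      refine sub_eq_zero.1 ?_
      have h2 : (((f σ : Mat2 p)) - 1) ^ p = 0 :=
        pow_eq_zero_of_le hp.out.two_le (by rw [pow_two]; exact hN)
      rwa [sub_pow_char_of_commute p (Commute.one_right _), one_pow] at h2
    have hf : f σ ^ p = 1 := Units.ext (by rw [Units.val_pow_eq_pow_val, hpow, Units.val_one])
    have h1 : orderOf (f σ) ∣ Nat.card r.range := by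
      have h0 := orderOf_dvd_natCard (⟨f σ, σ, rfl⟩ : r.range)
      rwa [← orderOf_injective r.range.subtype Subtype.val_injective] at h0
    rcases (Nat.dvd_prime hp.out).1 (orderOf_dvd_of_pow_eq_one hf) with h | h
    · exact orderOf_eq_one_iff.1 h
    · rw [h] at h1; exact absurd h1 hcard
  have hpos : 0 < (p - 1) * Nat.card r.range :=
    Nat.mul_pos (by have := hp.out.two_le; omega) Nat.card_pos
  obtain ⟨t, ht⟩ := TameData.exists_data (p := p) P ((p - 1) * Nat.card r.range) hpos
    (dvd_mul_right _ _) (fun h => by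
      rcases hp.out.dvd_mul.1 h with h' | h'
      · have := Nat.le_of_dvd (by have := hp.out.two_le; omega) h'
        have := hp.out.two_le
        omega
      · exact hcard h')
  obtain ⟨τ, hτ, hθ⟩ := t.exists_tau hP
  obtain ⟨φ, hφ⟩ := exists_frob hP
  have hG : ∀ g ∈ t.G, f g = 1 := fun g hg => t.hom_trivial hP f ⟨L, hL, hflev⟩
    (fun a b _ _ => map_mul f a b) hwild (fun σ _ => by
      rw [ht, mul_comm, pow_mul]
      have := pow_card_eq_one' (x := (⟨f σ, σ, rfl⟩ : r.range))
      rw [show f σ ^ Nat.card r.range = 1 from congrArg Subtype.val this, one_pow]) hg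
  refine ⟨τ, hτ, φ, ?_, fun σ hσ => ?_⟩
  · obtain ⟨g, hg, he⟩ := t.frob_conj_decomp hP hφ hτ
    have := congrArg f he
    rw [map_mul, map_mul, map_inv, map_mul, map_pow, hG g hg, mul_one] at this
    exact this
  · have hσd : σ ∈ P.decompositionSubgroup ℚ := Places.inertia_le_decomposition P hσ
    obtain ⟨k, g, hg, he⟩ := t.ine_decomp hP hτ hθ (σ := ⟨σ, hσd⟩) hσ
    refine ⟨k, ?_⟩
    have := congrArg f he
    rw [map_mul, map_pow, hG g hg, mul_one] at this
    exact this

end FLTAgent.ModLift
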